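/-
Project FF (S19), cell [INST] = `ff_SeamINST N ℓ k` (cell architect: helper5).  THE OBJECTS.
Prefix `ffi_`.

* `ffi_L A = Q̄^{I_A}` : the fixed field of the inertia group of the place `A` of `Q̄` (THE level
  `L₁` of the instance: `A ∩ L₁` is a henselian discrete valuation ring with uniformiser `ℓ` and
  residue field `κ_A`, every unramified point of the special fibre lifts to an `L₁`-point);
* `ffi_O A = A ∩ L₁` as a valuation subring of `L₁`; `ffi_LvlOK ℓ A` : the facts on the level;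
* generic objects of a two-chart model (`O` a ring, `F ⊇ O` a field, `x ∈ F`):
  `ffi_gLam O x m = 𝒜 ∩ x^m 𝒜'` (`𝒜 = fc_chart O {x}`, `𝒜' = fc_chart O {x⁻¹}`),
  `ffi_gC O x = 𝒜' / (x⁻¹)`, `ffi_gLead O x m : Λ m → C`, `a ↦ (a x^{-m} mod x⁻¹)`;
* the modular instance: `ffi_j A N`, `ffi_A1 A N` (the `j`-chart of `X₀(N)` over `O₁`),
  `ffi_A2 A N` (the chart at the cusps), `ffi_toBar A N : F_{L₁} → F̄_N`;
* `ffi_IsDict` : THE FIBRE DICTIONARY between a fibre `k ⊗ 𝒜` of a package and the chart of a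
  function field `F_k / k` (places, pole filtration, exact pole order, Riemann with the genus `g`
  of the package).
-/
import Mathlib
import Fermat.Agent.FF.SeamsGeom
import Fermat.Agent.JT3.FCore.Charts
import Fermat.Agent.JT3.Inst.Defs
import Fermat.Agent.JT3.Riemann.Approx

set_option autoImplicit false
set_option linter.unusedSectionVars false

noncomputable section

namespace Fermat.Agent.FF

open ModularCurve AlgebraicCurve Fermat.Agent.JT3
open scoped TensorProduct

/-! ### the level -/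

/-- `L₁ = Q̄^{I_A}`: the fixed field of the inertia group of `A` (the level of the instance). -/
def ffi_L (A : ValuationSubring ff_Qb) : IntermediateField ℚ ff_Qb :=
  IntermediateField.fixedField (A.inertiaSubgroupIn ℚ)

theorem ffi_mem_L {A : ValuationSubring ff_Qb} {a : ff_Qb} :
    a ∈ ffi_L A ↔ ∀ σ ∈ A.inertiaSubgroupIn ℚ, σ a = a := by
  rw [ffi_L, IntermediateField.mem_fixedField_iff]

section Level

/- ALL statements of the cell are GENERIC in the level field `L → Q̄` (an abstract field with an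
embedding into `Q̄`): instance search on the concrete subtype `↥(ffi_L A)` is very slow, so it is
instantiated only once, in `FF/Inst/Assembly.lean`. -/
variable (A : ValuationSubring ff_Qb) (L : Type) [Field L] [Algebra L ff_Qb]

/-- `O₁ = A ∩ L`, a valuation subring of `L`. -/
abbrev ffi_O : ValuationSubring L := A.comap (algebraMap L ff_Qb)

variable {A L} in
theorem ffi_mem_O {a : L} : a ∈ ffi_O A L ↔ algebraMap L ff_Qb a ∈ A := Iff.rfl

/-- `O₁ → A` -/
def ffi_OtoA : ↥(ffi_O A L) →+* ↥A where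
  toFun o := ⟨algebraMap L ff_Qb (o : L), o.2⟩
  map_one' := Subtype.ext (map_one _)
  map_mul' _ _ := Subtype.ext (map_mul _ _ _)
  map_zero' := Subtype.ext (map_zero _)
  map_add' _ _ := Subtype.ext (map_add _ _ _)

theorem ffi_OtoA_coe (o : ↥(ffi_O A L)) :
    ((ffi_OtoA A L o : ↥A) : ff_Qb) = algebraMap L ff_Qb (o : L) := rfl

/-- `O₁ ⊆ Q̄` -/
instance ffi_instAlgOQb : Algebra ↥(ffi_O A L) ff_Qb :=
  ((algebraMap L ff_Qb).comp (ffi_O A L).subtype).toAlgebra

/-- `O₁ → κ_A` (NOT a global instance: the sub-seams are generic in the residue field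
`π : A → κ`, the concrete `κ_A = IsLocalRing.ResidueField A` appears only in the assembly). -/
@[reducible] def ffi_algOκ : Algebra ↥(ffi_O A L) (IsLocalRing.ResidueField ↥A) :=
  ((IsLocalRing.residue ↥A).comp (ffi_OtoA A L)).toAlgebra

theorem ffi_algebraMap_O_Qb (o : ↥(ffi_O A L)) :
    algebraMap ↥(ffi_O A L) ff_Qb o = algebraMap L ff_Qb (o : L) := rfl

instance ffi_instTowerOLQb : IsScalarTower ↥(ffi_O A L) L ff_Qb :=
  IsScalarTower.of_algebraMap_eq fun _ => rfl

/-- **the facts on the level** `L = Q̄^{I_A}`, `O₁ = A ∩ L` (output of `[I-LVL]`). -/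
structure ffi_LvlOK (ℓ : ℕ) : Prop where
  /-- `L` IS the fixed field of the inertia group of `A` -/
  fix : ∀ a : ff_Qb, a ∈ (algebraMap L ff_Qb).range ↔ ∀ σ ∈ A.inertiaSubgroupIn ℚ, σ a = a
  dvr : IsDiscreteValuationRing ↥(ffi_O A L)
  /-- `ℓ` is a uniformiser of `A ∩ L` -/
  irr : Irreducible ((ℓ : ℕ) : ↥(ffi_O A L))
  unr : ∀ a : L, algebraMap L ff_Qb a ∈ A.nonunits → algebraMap L ff_Qb a / (ℓ : ff_Qb) ∈ A
  /-- the residue field of `O₁` is all of `κ_A` -/
  res : ∀ a : ↥A, ∃ c : L, algebraMap L ff_Qb c ∈ A ∧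
    (a : ff_Qb) - algebraMap L ff_Qb c ∈ A.nonunits
  algClosed : IsAlgClosed (IsLocalRing.ResidueField ↥A)
  /-- the roots of unity of order prime to `ℓ` lie in `L` -/
  roots : ∀ m : ℕ, m ≠ 0 → ¬ ℓ ∣ m → ∃ ζ : L, IsPrimitiveRoot ζ m

/-- `π : A → κ` IS the residue field of `A`, and the `O₁`-algebra structure of `κ` is the induced
one.  (All sub-seams are generic in `(κ, π)`: instance search on the concrete
`IsLocalRing.ResidueField A` is very slow.) -/
structure ffi_ResOK (κ : Type) [Field κ] [Algebra ↥(ffi_O A L) κ] (π : ↥A →+* κ) : Prop where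
  surj : Function.Surjective π
  ker : ∀ a : ↥A, π a = 0 ↔ (a : ff_Qb) ∈ A.nonunits
  comp : ∀ o : ↥(ffi_O A L), algebraMap ↥(ffi_O A L) κ o = π (ffi_OtoA A L o)

end Level

/-! ### generic objects of a two-chart model -/

section Generic

universe u v

variable (O : Type u) [CommRing O] {F : Type v} [Field F] [Algebra O F] (x : F)

/-- `t = x⁻¹` as an element of the chart at infinity `𝒜' = fc_chart O {x⁻¹}`. -/
def ffi_gT : ↥(fc_chart O ({x⁻¹} : Set F)) :=
  ⟨x⁻¹, fc_adjoin_le_chart _ (Algebra.subset_adjoin rfl)⟩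

/-- `x` as an element of the chart `𝒜 = fc_chart O {x}`. -/
def ffi_gX : ↥(fc_chart O ({x} : Set F)) :=
  ⟨x, fc_adjoin_le_chart _ (Algebra.subset_adjoin rfl)⟩

/-- the pole-order filtration `Λ m = 𝒜 ∩ x^m 𝒜'` of the chart `𝒜 = fc_chart O {x}`. -/
def ffi_gLam (m : ℕ) : Submodule O ↥(fc_chart O ({x} : Set F)) where
  carrier := {a | (a : F) * x⁻¹ ^ m ∈ fc_chart O ({x⁻¹} : Set F)}
  add_mem' := by
    intro a b ha hb
    simp only [Set.mem_ofPred_eq, Subalgebra.coe_add, add_mul] at ha hb ⊢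
    exact add_mem ha hb
  zero_mem' := by
    simp only [Set.mem_ofPred_eq, ZeroMemClass.coe_zero, zero_mul]
    exact zero_mem _
  smul_mem' := by
    intro c a ha
    simp only [Set.mem_ofPred_eq, Subalgebra.coe_smul, smul_mul_assoc] at ha ⊢
    exact Subalgebra.smul_mem _ ha c

theorem ffi_mem_gLam {m : ℕ} {a : ↥(fc_chart O ({x} : Set F))} :
    a ∈ ffi_gLam O x m ↔ (a : F) * x⁻¹ ^ m ∈ fc_chart O ({x⁻¹} : Set F) := Iff.rfl

/-- `C = 𝒜' / (x⁻¹)`: the algebra of the divisor of poles of `x` ("the cusps"). -/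
abbrev ffi_gC : Type v := ↥(fc_chart O ({x⁻¹} : Set F)) ⧸ Ideal.span {ffi_gT O x}

/-- the leading term at the poles of `x`: `a ↦ (a x^{-m} mod x⁻¹)`. -/
def ffi_gLead (m : ℕ) : ↥(ffi_gLam O x m) →ₗ[O] ffi_gC O x where
  toFun a := Ideal.Quotient.mk _ ⟨((a : ↥(fc_chart O ({x} : Set F))) : F) * x⁻¹ ^ m, a.2⟩
  map_add' a b := by
    rw [← map_add]
    congr 1
    apply Subtype.ext
    simp [add_mul]
  map_smul' c a := by
    have h : (⟨(((c • a : ↥(ffi_gLam O x m)) : ↥(fc_chart O ({x} : Set F))) : F) * x⁻¹ ^ m,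
        (c • a).2⟩ : ↥(fc_chart O ({x⁻¹} : Set F))) =
        c • ⟨((a : ↥(fc_chart O ({x} : Set F))) : F) * x⁻¹ ^ m, a.2⟩ :=
      Subtype.ext (by simp)
    rw [h]
    rfl

theorem ffi_gLead_apply (m : ℕ) (a : ↥(ffi_gLam O x m)) :
    ffi_gLead O x m a =
      Ideal.Quotient.mk _ ⟨((a : ↥(fc_chart O ({x} : Set F))) : F) * x⁻¹ ^ m, a.2⟩ := rfl

end Generic

/-! ### the modular instance -/

section Modular

variable (A : ValuationSubring ff_Qb) (L : Type) [Field L] [Algebra L ff_Qb] (N : ℕ) [NeZero N]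

/-- `O₁ ⊆ F_L` (the same instance as in the generic context of `JT3/PlaceMap/*`). -/
example : Algebra ↥(ffi_O A L) ↥(modularFunctionFieldFullC L N) := inferInstance

/-- `j ∈ F_L = L(j(q^d) : d ∣ N)` -/
def ffi_j : ↥(modularFunctionFieldFullC L N) := ⟨jqModC L, jqModC_mem_full L N⟩

theorem ffi_j_coe : ((ffi_j L N : ↥(modularFunctionFieldFullC L N)) : LaurentSeries L) = jqModC L :=
  rfl

/-- the `j`-chart of `X₀(N)` over `O₁` (complement of the cusps): the normalisation of `O₁[j]` in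
`F_L`. -/
abbrev ffi_A1 : Subalgebra ↥(ffi_O A L) ↥(modularFunctionFieldFullC L N) :=
  fc_chart ↥(ffi_O A L) ({ffi_j L N} : Set ↥(modularFunctionFieldFullC L N))

/-- the chart at the cusps: the normalisation of `O₁[1/j]` in `F_L`. -/
abbrev ffi_A2 : Subalgebra ↥(ffi_O A L) ↥(modularFunctionFieldFullC L N) :=
  fc_chart ↥(ffi_O A L) ({(ffi_j L N)⁻¹} : Set ↥(modularFunctionFieldFullC L N))

omit [NeZero N] in
/-- extension of constants preserves the level-`N` function fields. -/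
theorem ffi_coeffMap_mem_fullC {K K' : Type*} [Field K] [Field K'] (ψ : K →+* K')
    {x : LaurentSeries K} (hx : x ∈ modularFunctionFieldFullC K N) :
    coeffMap ψ x ∈ modularFunctionFieldFullC K' N := by
  rw [modularFunctionFieldFullC] at hx
  induction hx using IntermediateField.adjoin_induction with
  | mem y hy =>
    obtain ⟨d, hd, hdN, rfl⟩ := hy
    have := hd
    rw [coeffMap_qExpand, coeffMap_jqModC]
    exact jqModCd_mem_full K' N hdN
  | algebraMap a =>
    rw [algebraMap_laurentSeries_eq_single, coeffMap_single, ← algebraMap_laurentSeries_eq_single]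
    exact (modularFunctionFieldFullC K' N).algebraMap_mem _
  | add x y _ _ hx hy => rw [map_add]; exact add_mem hx hy
  | inv x _ hx => rw [map_inv₀]; exact inv_mem hx
  | mul x y _ _ hx hy => rw [map_mul]; exact mul_mem hx hy

/-- the extension of constants `F_L → F̄_N = Q̄(j(q^d) : d ∣ N)`. -/
def ffi_toBar : ↥(modularFunctionFieldFullC L N) →+* ↥(modularFunctionFieldBar N) where
  toFun y := ⟨coeffMap (algebraMap L ff_Qb) (y : LaurentSeries L), by
    rw [← lg_F_eq_bar]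
    exact ffi_coeffMap_mem_fullC N _ y.2⟩
  map_one' := Subtype.ext (map_one _)
  map_mul' _ _ := Subtype.ext (map_mul _ _ _)
  map_zero' := Subtype.ext (map_zero _)
  map_add' _ _ := Subtype.ext (map_add _ _ _)

theorem ffi_toBar_coe (y : ↥(modularFunctionFieldFullC L N)) :
    ((ffi_toBar L N y : ↥(modularFunctionFieldBar N)) : LaurentSeries ff_Qb) =
      coeffMap (algebraMap L ff_Qb) (y : LaurentSeries L) := rfl

/-- `j ∈ F̄_N` -/
def ffi_jBar : ↥(modularFunctionFieldBar N) :=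
  ⟨jqModC ff_Qb, by rw [← lg_F_eq_bar]; exact jqModC_mem_full ff_Qb N⟩

theorem ffi_jBar_coe : ((ffi_jBar N : ↥(modularFunctionFieldBar N)) : LaurentSeries ff_Qb) =
    jqModC ff_Qb := rfl

theorem ffi_toBar_j : ffi_toBar L N (ffi_j L N) = ffi_jBar N :=
  Subtype.ext (by rw [ffi_toBar_coe, ffi_j_coe, coeffMap_jqModC]; rfl)

end Modular

/-! ### the fibre dictionary -/

/-- **The fibre dictionary.**  `(O, 𝒜, C, Λ, lead)` as in `ff_IsPkg`, `k` an `O`-field, `Fk / k` a
function field with separating generator `xk`, `ι : k ⊗ 𝒜 → Fk`: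
the fibre `k ⊗ 𝒜` IS the ring of functions of `Fk` regular off the poles of `xk`, `k ⊗ Λ m` is
`L(m · (xk)_∞)` (for `m ≥ m1`), the leading term of `u ∈ k ⊗ Λ m` is a unit iff `u` has exact pole
order `m · (xk)_∞`, and `Fk / k` satisfies Riemann's theorem with the genus `g`. -/
structure ffi_IsDict (O : Type) [CommRing O] (𝒜 : Type) [CommRing 𝒜] [Algebra O 𝒜]
    (C : Type) [CommRing C] [Algebra O C] (k : Type) [Field k] [Algebra O k]
    (Λ : ℕ → Submodule O 𝒜) (lead : ∀ m, ↥(Λ m) →ₗ[O] C)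
    (Fk : Type) [Field Fk] [Algebra k Fk] (xk : Fk) (ι : k ⊗[O] 𝒜 →ₐ[k] Fk) (g m1 : ℕ) :
    Prop where
  sep : rt_IsSepGen k xk
  inj : Function.Injective ι
  /-- the range of `ι` is the chart of `xk` -/
  chart : ∀ f : Fk, f ∈ ι.range ↔
    ∀ v : Place k Fk, xk ∈ v.toValuationSubring → f ∈ v.toValuationSubring
  /-- `k ⊗ Λ m ⊆ L(m · (xk)_∞)` -/
  lam_le : ∀ (m : ℕ) (u : k ⊗[O] ↥(Λ m)) (v : Place k Fk), xk ∉ v.toValuationSubring →
    (m : ℤ) * v.ord xk ≤ v.ord (ι (ff_incl O 𝒜 k Λ m u))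
  /-- `L(m · (xk)_∞) ⊆ k ⊗ Λ m` for `m ≥ m1` -/
  lam_ge : ∀ m : ℕ, m1 ≤ m → ∀ b : k ⊗[O] 𝒜,
    (∀ v : Place k Fk, xk ∉ v.toValuationSubring → (m : ℤ) * v.ord xk ≤ v.ord (ι b)) →
    ∃ u : k ⊗[O] ↥(Λ m), ff_incl O 𝒜 k Λ m u = b
  /-- unit leading term ↔ exact pole order -/
  lead_iff : ∀ (m : ℕ) (u : k ⊗[O] ↥(Λ m)), IsUnit (ff_leadk O 𝒜 C k Λ lead m u) ↔
    (ι (ff_incl O 𝒜 k Λ m u) ≠ 0 ∧ ∀ v : Place k Fk, xk ∉ v.toValuationSubring →
      v.ord (ι (ff_incl O 𝒜 k Λ m u)) = (m : ℤ) * v.ord xk)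
  /-- Riemann's theorem with the genus of the package -/
  riemann : ∃ c : ℤ, ∀ D : Divisor k Fk, c ≤ Divisor.degree D →
    (Module.finrank k ↥(riemannRochSpace D) : ℤ) = Divisor.degree D + 1 - g

end Fermat.Agent.FF
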