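/-
Project FF (S19), cell [INST] = `ff_SeamINST N ℓ k` (cell architect: helper5).  THE SUB-SEAMS,
top layer.  Prefix `ffi_`.

`ff_SeamINST N ℓ k  ⟸  ffi_SeamLVL ℓ ∧ ffi_SeamPKG N ℓ ∧ ffi_SeamPT N ℓ k`  (`FF/Inst/Assembly.lean`,
with node E `rpw_nodeE`).

ALL statements are GENERIC in the level `L → Q̄` (an abstract field; `O₁ = ffi_O A L = A ∩ L`) and in
the residue field `π : A → κ` (an abstract field; `ffi_ResOK`): instance search on the concrete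
types `↥(ffi_L A)`, `IsLocalRing.ResidueField A` is very slow; they appear only in the assembly.

* **`ffi_SeamLVL ℓ`** ([I-LVL], number theory): the level `L₁ = Q̄^{I_A}` (`ffi_L A`):
  `A ∩ L₁` is a discrete valuation ring with uniformiser `ℓ` and residue field `κ_A`, `L₁` contains
  the roots of unity of order prime to `ℓ` (`ffi_LvlOK`).
* **`ffi_SeamPKG N ℓ`** ([I-PKG], the model): over any level `L → Q̄` with `ffi_LvlOK`, the `j`-chart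
  `𝒜 = ffi_A1` of `X₀(N)` over `O₁` with `Λ m = 𝒜 ∩ j^m 𝒜'`, `C = 𝒜' / (1/j)` is a package
  `ff_IsPkg`, and BOTH fibres come with a dictionary `ffi_IsDict` to the function fields
  `F̄_N / Q̄` and `F̃_N / κ` (`ffi_PkgData`).
* **`ffi_SeamPT N ℓ k`** ([I-PT], the points): from `ffi_PkgData` and node E
  (`ReductionInputsAlong A π N`) the divisors `D_z ∼ z + E₀`, `z ∈ J₀(N)[ℓ^k]`, their points,
  reductions, and all the clauses of `ff_SeamINST` about them.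
-/
import Mathlib
import Fermat.Agent.FF.Inst.Defs
import Fermat.Prelude.Def_ModularCurve_ReductionModL

set_option autoImplicit false

noncomputable section

namespace Fermat.Agent.FF

open ModularCurve AlgebraicCurve Fermat.Agent.JT3
open scoped TensorProduct

/-! ### [I-LVL] -/

/-- **[I-LVL]** the inertia field `L₁ = Q̄^{I_A}` of a place `A` of `Q̄` over `ℓ` is an unramified
henselian level with full residue field. -/
def ffi_SeamLVL (ℓ : ℕ) : Prop :=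
  ∀ A : ValuationSubring ff_Qb, A.LiesOverPrime ℓ → ffi_LvlOK A ↥(ffi_L A) ℓ

/-! ### [I-PKG] -/

section Pkg

variable (A : ValuationSubring ff_Qb) (L : Type) [Field L] [Algebra L ff_Qb]
  (κ : Type) [Field κ] [Algebra ↥(ffi_O A L) κ] (N : ℕ) [NeZero N] (ℓ : ℕ)

/-- **the output of [I-PKG]**: the package of the `j`-chart over `O₁ = A ∩ L` and the two fibre
dictionaries. -/
structure ffi_PkgData (g n m0 c0 : ℕ)
    (ιK : ff_Qb ⊗[↥(ffi_O A L)] ↥(ffi_A1 A L N) →ₐ[ff_Qb] ↥(modularFunctionFieldBar N))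
    (ικ : κ ⊗[↥(ffi_O A L)] ↥(ffi_A1 A L N) →ₐ[κ] ↥(modularFunctionFieldFullC κ N)) : Prop where
  /-- the package -/
  pkg : ff_IsPkg ↥(ffi_O A L) ↥(ffi_A1 A L N) (ffi_gC ↥(ffi_O A L) (ffi_j L N))
    ((ℓ : ℕ) : ↥(ffi_O A L)) ff_Qb κ
    (ffi_gLam ↥(ffi_O A L) (ffi_j L N)) (ffi_gLead ↥(ffi_O A L) (ffi_j L N)) g n m0 c0
  /-- the generic fibre is the `j`-chart of `F̄_N / Q̄` -/
  dictK : ffi_IsDict ↥(ffi_O A L) ↥(ffi_A1 A L N) (ffi_gC ↥(ffi_O A L) (ffi_j L N)) ff_Qb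
    (ffi_gLam ↥(ffi_O A L) (ffi_j L N)) (ffi_gLead ↥(ffi_O A L) (ffi_j L N))
    ↥(modularFunctionFieldBar N) (ffi_jBar N) ιK g 0
  /-- the special fibre is the `j̃`-chart of `F̃_N / κ` -/
  dictκ : ffi_IsDict ↥(ffi_O A L) ↥(ffi_A1 A L N) (ffi_gC ↥(ffi_O A L) (ffi_j L N)) κ
    (ffi_gLam ↥(ffi_O A L) (ffi_j L N)) (ffi_gLead ↥(ffi_O A L) (ffi_j L N))
    ↥(modularFunctionFieldFullC κ N) (ffi_j κ N) ικ g m0
  /-- `q`-expansion principle: the chart functions have `q`-expansions over `O₁` -/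
  qint : ∀ a : ↥(ffi_A1 A L N), ∃ w : LaurentSeries ↥(ffi_O A L),
    coeffMap (algebraMap ↥(ffi_O A L) L) w =
      ((a : ↥(modularFunctionFieldFullC L N)) : LaurentSeries L)
  /-- `ιK` is the extension of constants -/
  compatK : ∀ a : ↥(ffi_A1 A L N),
    ιK (1 ⊗ₜ[↥(ffi_O A L)] a) = ffi_toBar L N (a : ↥(modularFunctionFieldFullC L N))
  /-- `ικ` is the coefficientwise reduction of `q`-expansions -/
  compatκ : ∀ (a : ↥(ffi_A1 A L N)) (w : LaurentSeries ↥(ffi_O A L)),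
    coeffMap (algebraMap ↥(ffi_O A L) L) w =
      ((a : ↥(modularFunctionFieldFullC L N)) : LaurentSeries L) →
    ((ικ (1 ⊗ₜ[↥(ffi_O A L)] a) : ↥(modularFunctionFieldFullC κ N)) : LaurentSeries κ) =
      coeffMap (algebraMap ↥(ffi_O A L) κ) w

end Pkg

set_option synthInstance.maxHeartbeats 400000 in
/-- **[I-PKG]** the model: package and fibre dictionaries of the `j`-chart of `X₀(N)` over any
unramified level with full residue field containing the roots of unity of order prime to `ℓ`.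
(CONCRETE in the residue field `κ_A = IsLocalRing.ResidueField A`, with the `O₁`-algebra structure
`ffi_algOκ A L`: the special-fibre leaf rests on the concrete `rpz_*` lemmas of `JT3/PlaceMap`.) -/
def ffi_SeamPKG (N : ℕ) [NeZero N] (ℓ : ℕ) : Prop :=
  ℓ.Prime → ¬ ℓ ∣ N → ∀ A : ValuationSubring ff_Qb, A.LiesOverPrime ℓ →
  ∀ (L : Type) [Field L] [Algebra ℚ L] [Algebra L ff_Qb] [IsScalarTower ℚ L ff_Qb],
    ffi_LvlOK A L ℓ →
    letI := ffi_algOκ A L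
    ∃ (g n m0 c0 : ℕ)
      (ιK : ff_Qb ⊗[↥(ffi_O A L)] ↥(ffi_A1 A L N) →ₐ[ff_Qb] ↥(modularFunctionFieldBar N))
      (ικ : IsLocalRing.ResidueField ↥A ⊗[↥(ffi_O A L)] ↥(ffi_A1 A L N)
        →ₐ[IsLocalRing.ResidueField ↥A]
        ↥(modularFunctionFieldFullC (IsLocalRing.ResidueField ↥A) N)),
      ffi_PkgData A L (IsLocalRing.ResidueField ↥A) N ℓ g n m0 c0 ιK ικ

/-! ### [I-PT] -/

/-- **[I-PT]** the points: the divisors `D_z ∼ z + E₀` for `z ∈ J₀(N)[ℓ^k]`. -/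
def ffi_SeamPT (N : ℕ) [NeZero N] (ℓ k : ℕ) : Prop :=
  ℓ.Prime → ¬ ℓ ∣ N → ∀ A : ValuationSubring ff_Qb, A.LiesOverPrime ℓ →
  ∀ (L : Type) [Field L] [Algebra ℚ L] [Algebra L ff_Qb] [IsScalarTower ℚ L ff_Qb],
    ffi_LvlOK A L ℓ →
  ∀ (κ : Type) [Field κ] [IsAlgClosed κ] [Algebra ↥(ffi_O A L) κ] (π : ↥A →+* κ),
    ffi_ResOK A L κ π → ReductionInputsAlong A π N →
  ∀ (g n m0 c0 : ℕ)
    (ιK : ff_Qb ⊗[↥(ffi_O A L)] ↥(ffi_A1 A L N) →ₐ[ff_Qb] ↥(modularFunctionFieldBar N))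
    (ικ : κ ⊗[↥(ffi_O A L)] ↥(ffi_A1 A L N) →ₐ[κ] ↥(modularFunctionFieldFullC κ N)),
    ffi_PkgData A L κ N ℓ g n m0 c0 ιK ικ →
  ∃ (PK : ↥(Submodule.torsionBy ℤ (JZero N) ((ℓ : ℤ) ^ k)) → Fin g →
        ↥(ffi_A1 A L N) →ₐ[↥(ffi_O A L)] ff_Qb)
    (Pκ : ↥(Submodule.torsionBy ℤ (JZero N) ((ℓ : ℤ) ^ k)) → Fin g →
        ↥(ffi_A1 A L N) →ₐ[↥(ffi_O A L)] κ)
    (P0 : Fin g → ↥(ffi_A1 A L N) →ₐ[↥(ffi_O A L)] ↥(ffi_O A L)),
    -- the points of `D_z` are `A`-integral, `Pκ` is their reduction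
    (∀ z j a, ∃ h : PK z j a ∈ A, π ⟨_, h⟩ = Pκ z j a) ∧
    -- both fibres: `D_{x+y} + E₀ ∼ D_x + D_y`, `l(D_z) = 1`
    (∀ x y, ff_LinEq ↥(ffi_O A L) ↥(ffi_A1 A L N) (ffi_gC ↥(ffi_O A L) (ffi_j L N)) ff_Qb
      (ffi_gLam ↥(ffi_O A L) (ffi_j L N)) (ffi_gLead ↥(ffi_O A L) (ffi_j L N))
      (ff_ptIdeal ff_Qb (PK (x + y)))
      (ff_ptIdeal ff_Qb fun j => (Algebra.ofId ↥(ffi_O A L) ff_Qb).comp (P0 j))
      (ff_ptIdeal ff_Qb (PK x)) (ff_ptIdeal ff_Qb (PK y))) ∧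
    (∀ z, ff_Uniq ↥(ffi_O A L) ↥(ffi_A1 A L N) (ffi_gC ↥(ffi_O A L) (ffi_j L N)) ff_Qb
      (ffi_gLam ↥(ffi_O A L) (ffi_j L N)) (ffi_gLead ↥(ffi_O A L) (ffi_j L N))
      (ff_ptIdeal ff_Qb (PK z))) ∧
    (∀ x y, ff_LinEq ↥(ffi_O A L) ↥(ffi_A1 A L N) (ffi_gC ↥(ffi_O A L) (ffi_j L N)) κ
      (ffi_gLam ↥(ffi_O A L) (ffi_j L N)) (ffi_gLead ↥(ffi_O A L) (ffi_j L N))
      (ff_ptIdeal κ (Pκ (x + y)))
      (ff_ptIdeal κ fun j => (Algebra.ofId ↥(ffi_O A L) κ).comp (P0 j))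
      (ff_ptIdeal κ (Pκ x)) (ff_ptIdeal κ (Pκ y))) ∧
    (∀ z, ff_Uniq ↥(ffi_O A L) ↥(ffi_A1 A L N) (ffi_gC ↥(ffi_O A L) (ffi_j L N)) κ
      (ffi_gLam ↥(ffi_O A L) (ffi_j L N)) (ffi_gLead ↥(ffi_O A L) (ffi_j L N))
      (ff_ptIdeal κ (Pκ z))) ∧
    -- Galois equivariance (under the automorphisms of `Q̄` fixing `L`) and separation
    (∀ σ : ff_GQ, (∀ c : L, σ (algebraMap L ff_Qb c) = algebraMap L ff_Qb c) → ∀ z a i,
      ff_symFun PK a i (σ • z) = σ (ff_symFun PK a i z)) ∧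
    (∀ z z', z ≠ z' → ∃ a i, ff_symFun PK a i z ≠ ff_symFun PK a i z')

end Fermat.Agent.FF
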