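/-
Project FF (S19), cell [INST] (cell architect: helper5).  THE ASSEMBLY, top layer.  Prefix `ffi_`.

`ffi_inst_of_seams : ffi_SeamLVL ℓ → ffi_SeamPKG N ℓ → ffi_SeamPT N ℓ k → (node E at every place
over ℓ) → ff_SeamINST N ℓ k`.
(`FF/Inst/Main.lean`, at the very end, discharges node E with `rpw_nodeE`.)
-/
import Mathlib
import Fermat.Agent.FF.Inst.Seams

set_option autoImplicit false
set_option linter.style.haveILetI false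

noncomputable section

namespace Fermat.Agent.FF

open ModularCurve AlgebraicCurve Fermat.Agent.JT3
open scoped TensorProduct

/-- the instance at ONE place `A` over a generic level `L → Q̄` with `ffi_LvlOK`. -/
theorem ffi_inst_of_level (N : ℕ) [NeZero N] (ℓ k : ℕ) (hℓ : ℓ.Prime) (hℓN : ¬ ℓ ∣ N)
    (hPKG : ffi_SeamPKG N ℓ) (hPT : ffi_SeamPT N ℓ k)
    (A : ValuationSubring ff_Qb) (hA : A.LiesOverPrime ℓ) (hE : ReductionInputsModL A N)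
    (L : Type) [Field L] [Algebra ℚ L] [Algebra L ff_Qb] [IsScalarTower ℚ L ff_Qb]
    (lvl : ffi_LvlOK A L ℓ) :
    ∃ (L₁ : IntermediateField ℚ ff_Qb)
    (O : Type) (_ : CommRing O) (_ : IsDomain O) (_ : IsDiscreteValuationRing O)
    (_ : Algebra O ff_Qb) (_ : Algebra O (IsLocalRing.ResidueField ↥A))
    (_ : IsAlgClosed (IsLocalRing.ResidueField ↥A))
    (𝒜 : Type) (_ : CommRing 𝒜) (_ : Algebra O 𝒜) (C : Type) (_ : CommRing C) (_ : Algebra O C)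
    (π : O) (Λ : ℕ → Submodule O 𝒜) (lead : ∀ m, ↥(Λ m) →ₗ[O] C) (g n m0 c0 : ℕ)
    (PK : ↥(Submodule.torsionBy ℤ (JZero N) ((ℓ : ℤ) ^ k)) → Fin g → 𝒜 →ₐ[O] ff_Qb)
    (Pκ : ↥(Submodule.torsionBy ℤ (JZero N) ((ℓ : ℤ) ^ k)) → Fin g →
      𝒜 →ₐ[O] IsLocalRing.ResidueField ↥A)
    (P0 : Fin g → 𝒜 →ₐ[O] O),
    (∀ a ∈ L₁, a ∈ A.nonunits → a / (ℓ : ff_Qb) ∈ A) ∧
    Set.range (algebraMap O ff_Qb) = (A : Set ff_Qb) ∩ (L₁ : Set ff_Qb) ∧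
    (∀ (o : O) (h : algebraMap O ff_Qb o ∈ A),
      IsLocalRing.residue ↥A ⟨_, h⟩ = algebraMap O (IsLocalRing.ResidueField ↥A) o) ∧
    ff_IsPkg O 𝒜 C π ff_Qb (IsLocalRing.ResidueField ↥A) Λ lead g n m0 c0 ∧
    (∀ z j a, ∃ h : PK z j a ∈ A, IsLocalRing.residue ↥A ⟨_, h⟩ = Pκ z j a) ∧
    (∀ x y, ff_LinEq O 𝒜 C ff_Qb Λ lead (ff_ptIdeal ff_Qb (PK (x + y)))
      (ff_ptIdeal ff_Qb fun j => (Algebra.ofId O ff_Qb).comp (P0 j))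
      (ff_ptIdeal ff_Qb (PK x)) (ff_ptIdeal ff_Qb (PK y))) ∧
    (∀ z, ff_Uniq O 𝒜 C ff_Qb Λ lead (ff_ptIdeal ff_Qb (PK z))) ∧
    (∀ x y, ff_LinEq O 𝒜 C (IsLocalRing.ResidueField ↥A) Λ lead
      (ff_ptIdeal (IsLocalRing.ResidueField ↥A) (Pκ (x + y)))
      (ff_ptIdeal (IsLocalRing.ResidueField ↥A) fun j =>
        (Algebra.ofId O (IsLocalRing.ResidueField ↥A)).comp (P0 j))
      (ff_ptIdeal (IsLocalRing.ResidueField ↥A) (Pκ x))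
      (ff_ptIdeal (IsLocalRing.ResidueField ↥A) (Pκ y))) ∧
    (∀ z, ff_Uniq O 𝒜 C (IsLocalRing.ResidueField ↥A) Λ lead
      (ff_ptIdeal (IsLocalRing.ResidueField ↥A) (Pκ z))) ∧
    (∀ σ ∈ L₁.fixingSubgroup, ∀ z a i,
      ff_symFun PK a i (σ • z) = σ (ff_symFun PK a i z)) ∧
    (∀ z z', z ≠ z' → ∃ a i, ff_symFun PK a i z ≠ ff_symFun PK a i z') := by
  letI algκ : Algebra ↥(ffi_O A L) (IsLocalRing.ResidueField ↥A) := ffi_algOκ A L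
  haveI := lvl.algClosed
  haveI := lvl.dvr
  have res : ffi_ResOK A L (IsLocalRing.ResidueField ↥A) (IsLocalRing.residue ↥A) :=
    ⟨IsLocalRing.residue_surjective, fun a => by
      rw [IsLocalRing.residue_eq_zero_iff, A.mem_nonunits_iff_exists_mem_maximalIdeal]
      exact ⟨fun h => ⟨a.2, h⟩, fun ⟨_, h⟩ => h⟩, fun _ => rfl⟩
  obtain ⟨g, n, m0, c0, ιK, ικ, hD⟩ := hPKG hℓ hℓN A hA L lvl
  obtain ⟨PK, Pκ, P0, h1, h2, h3, h4, h5, h6, h7⟩ :=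
    hPT hℓ hℓN A hA L lvl (IsLocalRing.ResidueField ↥A) (IsLocalRing.residue ↥A) res hE
      g n m0 c0 ιK ικ hD
  refine ⟨(IsScalarTower.toAlgHom ℚ L ff_Qb).fieldRange, ↥(ffi_O A L), inferInstance,
    inferInstance, lvl.dvr, inferInstance, algκ, lvl.algClosed, ↥(ffi_A1 A L N), inferInstance,
    inferInstance, ffi_gC ↥(ffi_O A L) (ffi_j L N), inferInstance, inferInstance,
    ((ℓ : ℕ) : ↥(ffi_O A L)), ffi_gLam ↥(ffi_O A L) (ffi_j L N),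
    ffi_gLead ↥(ffi_O A L) (ffi_j L N), g, n, m0, c0, PK, Pκ, P0, ?_, ?_, ?_, hD.pkg, h1, h2, h3,
    h4, h5, ?_, h7⟩
  · rintro a ⟨c, rfl⟩ ha
    exact lvl.unr c ha
  · ext a
    constructor
    · rintro ⟨o, rfl⟩
      exact ⟨o.2, ⟨(o : L), rfl⟩⟩
    · rintro ⟨haA, ⟨c, rfl⟩⟩
      exact ⟨⟨c, haA⟩, rfl⟩
  · intro o h
    rfl
  · intro σ hσ z a i
    refine h6 σ (fun c => ?_) z a i
    exact hσ ⟨algebraMap L ff_Qb c, ⟨c, rfl⟩⟩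

/-- **[INST] from its three sub-seams and node E.** -/
theorem ffi_inst_of_seams (N : ℕ) [NeZero N] (ℓ k : ℕ) (hℓ : ℓ.Prime) (hℓN : ¬ ℓ ∣ N)
    (hLVL : ffi_SeamLVL ℓ) (hPKG : ffi_SeamPKG N ℓ) (hPT : ffi_SeamPT N ℓ k)
    (hE : ∀ A : ValuationSubring ff_Qb, A.LiesOverPrime ℓ → ReductionInputsModL A N) :
    ff_SeamINST N ℓ k := by
  intro A hA
  exact ffi_inst_of_level N ℓ k hℓ hℓN hPKG hPT A hA (hE A hA) ↥(ffi_L A) (hLVL A hA)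

end Fermat.Agent.FF
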