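/-
Project FF (S19), cell [INST] (architect: helper5): a shared helper.  Prefix `ffi_cf_`.

An abstract chart `B` (`ffd_IsChart K B x`: `B → F` has range the functions regular wherever `x`
is) of a separating generator `x` of a function field `F / K`, with `B → F` injective, has `F` as
its fraction field — compare with the integral closure of `K[x]` (`rt_chart_isFractionRing`).
-/
import Mathlib
import Fermat.Agent.FF.Dict.LSpace

set_option autoImplicit false

namespace Fermat.Agent.FF

open AlgebraicCurve Fermat.Agent.S24 Fermat.Agent.JT3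

universe u v w

/-- an abstract chart of a separating generator is a domain with fraction field `F`. -/
theorem ffi_cf_isFractionRing {K : Type u} {F : Type v} [Field K] [Field F] [Algebra K F] {x : F}
    (hx : rt_IsSepGen K x) (B : Type w) [CommRing B] [Algebra K B] [Algebra B F]
    [IsScalarTower K B F] (hinj : Function.Injective (algebraMap B F))
    (hB : ffd_IsChart K B x) : IsFractionRing B F := by
  have := rt_chart_isFractionRing hx
  have hdom : IsDomain B := hinj.isDomain (algebraMap B F)
  have hC := ffd_isChart_chart hx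
  -- every element of the concrete chart comes from `B`
  have hlift : ∀ c : ↥(ffd_chart K x), ∃ b : B, algebraMap B F b = (c : F) := by
    intro c
    exact (hB _).mpr ((hC _).mp ⟨c, rfl⟩)
  refine ⟨?_, ?_, ?_⟩
  · rintro ⟨b, hb⟩
    have hb0 : b ≠ 0 := nonZeroDivisors.ne_zero hb
    exact IsUnit.mk0 _ (by rwa [Ne, map_eq_zero_iff _ hinj])
  · intro f
    obtain ⟨⟨c, ⟨s, hs⟩⟩, hcs⟩ := IsLocalization.surj (nonZeroDivisors ↥(ffd_chart K x)) f
    obtain ⟨b, hb⟩ := hlift c
    obtain ⟨t, ht⟩ := hlift s
    have hs0 : s ≠ 0 := nonZeroDivisors.ne_zero hs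
    have ht0 : t ≠ 0 := by
      rintro rfl
      rw [map_zero] at ht
      exact hs0 (Subtype.ext ht.symm)
    refine ⟨⟨b, ⟨t, mem_nonZeroDivisors_of_ne_zero ht0⟩⟩, ?_⟩
    simp only at hcs ⊢
    rw [hb, ht]
    exact hcs
  · intro a b hab
    exact ⟨1, by rw [hinj hab]⟩

end Fermat.Agent.FF
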