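/-
Project FF (S19), cell [INST], leaf [I-LVL] (helper4).  Prefix `ffi_lvi_`.

`ffi_lvi : ffi_SeamLVL ℓ` : for a place `A` of `Q̄` over `ℓ`, the inertia field `L₁ = Q̄^{I_A}`
(`ffi_L A`) is an unramified level with full residue field:
`A ∩ L₁` is a discrete valuation ring with uniformiser `ℓ`, every residue class of `A` is
represented in `L₁`, and `L₁` contains the roots of unity of order prime to `ℓ`.

* `ffi_lvi_unit_mul_pow` : (number-field level) if `Q = 𝔪_A ∩ 𝓞 F` is unramified over `ℤ` then every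
  nonzero element of `F` is `ℓ ^ n` times a unit of `A` (generalises `ebf_cyclo_unit_mul_pow`);
* `ffi_lvi_ramificationIdx` : for `a ∈ Q̄^{I_A}`, `F = ℚ(a)`: `e(𝔪_A ∩ 𝓞 F | ℓ) = 1` (S55's
  `pl_map_inertia` + the inertia criterion `ffx_ic_int`; converse of `ffx_unr`);
* `ffi_lvi_unit` : every nonzero element of `Q̄^{I_A}` is `ℓ ^ n` times a unit of `A`;
* `ffi_lvi_root_fixed` : roots of unity of order prime to `ℓ` are fixed by `I_A`;
  `ffi_lvi_K0_le : ebf_K0 ℓ ≤ ffi_L A`.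
-/
import Mathlib
import Fermat.Agent.FF.Inst.Seams
import Fermat.Agent.FF.DescentUnr
import Fermat.Agent.JT3.PlaceMap.BaseResidue

set_option autoImplicit false
set_option linter.unusedSectionVars false
set_option linter.style.haveILetI false

open Pointwise NumberField IntermediateField IsDedekindDomain WithZero

namespace Fermat.Agent.FF

open Fermat.Agent.S55 Fermat.Agent.JT3

local notation "Qbar" => AlgebraicClosure ℚ

section Abs

variable {F : Type*} [Field F] [NumberField F] (ι : F →+* Qbar) (ℓ : ℕ) [hℓ : Fact ℓ.Prime]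
  (A : ValuationSubring Qbar)

omit [NumberField F] hℓ in
theorem ffi_lvi_comap_nonunits (x : F) : x ∈ (A.comap ι).nonunits ↔ ι x ∈ A.nonunits := by
  rw [ValuationSubring.mem_nonunits_iff_or, ValuationSubring.mem_nonunits_iff_or,
    ValuationSubring.mem_comap, map_inv₀, map_eq_zero]

/-- **Number field level.**  If the prime `Q = 𝔪_A ∩ 𝓞 F` of the number field `F → Q̄` is unramified
over `ℤ`, every nonzero element of `F` is `ℓ ^ n` times a unit of `A`. -/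
theorem ffi_lvi_unit_mul_pow (hA : A.LiesOverPrime ℓ) (Q : Ideal (𝓞 F)) [Q.IsPrime]
    (hQ : ∀ x : 𝓞 F, x ∈ Q ↔ ι (x : F) ∈ A.nonunits) (he : Q.ramificationIdx ℤ = 1)
    (x : F) (hx : x ≠ 0) :
    ∃ n : ℤ, ι x * (ℓ : Qbar) ^ n ∈ A ∧ (ι x * (ℓ : Qbar) ^ n)⁻¹ ∈ A := by
  classical
  have hℓ0 : ℓ ≠ 0 := hℓ.out.ne_zero
  set V1 : ValuationSubring F := A.comap ι with hV1
  have hℓV1 : (ℓ : F) ∈ V1.nonunits := by
    rw [ffi_lvi_comap_nonunits, map_natCast]; exact hA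
  have hV1top : V1 ≠ ⊤ :=
    dsc_ne_top_of_mem_nonunits V1 hℓV1 (by exact_mod_cast hℓ0)
  have hint : ∀ r : 𝓞 F, algebraMap (𝓞 F) F r ∈ V1 := fun r =>
    dsc_mem_of_isIntegral_of_le V1 (O := ℤ) (fun n => by
      rw [eq_intCast]; exact intCast_mem V1 n) r.2
  obtain ⟨w, hw⟩ := dsc_exists_eq_valuationSubring (𝓞 F) F V1 hint hV1top
  -- `w = Q`
  have hwQ : w.asIdeal = Q := by
    ext r
    rw [hQ, ← ffi_lvi_comap_nonunits, ← hV1, ← hw,
      ← HeightOneSpectrum.valuation_lt_one_iff_mem (K := F)]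
    rw [ValuationSubring.mem_nonunits_iff_or]
    constructor
    · intro h
      by_cases h0 : (r : F) = 0
      · exact Or.inl h0
      · right
        rw [Valuation.mem_valuationSubring_iff, map_inv₀, not_le]
        exact (one_lt_inv₀ (zero_lt_iff.2 ((Valuation.ne_zero_iff _).2 h0))).2 h
    · rintro (h | h)
      · change w.valuation F (r : F) < 1
        rw [h, map_zero]
        exact zero_lt_one
      · rw [Valuation.mem_valuationSubring_iff, map_inv₀, not_le] at h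
        have hne : w.valuation F (r : F) ≠ 0 := by
          intro h0
          rw [h0, inv_zero] at h
          exact not_lt.2 zero_le_one h
        exact (one_lt_inv₀ (zero_lt_iff.2 hne)).1 h
  -- the prime `(ℓ)` of `ℤ`
  have hℓprime : Prime (ℓ : ℤ) := Nat.prime_iff_prime_int.mp hℓ.out
  let v : HeightOneSpectrum ℤ :=
    ⟨Ideal.span {(ℓ : ℤ)}, (Ideal.span_singleton_prime hℓprime.ne_zero).mpr hℓprime, by
      rw [Ne, Ideal.span_singleton_eq_bot]; exact hℓprime.ne_zero⟩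
  have hℓw : ((ℓ : ℤ) : 𝓞 F) ∈ w.asIdeal := by
    rw [hwQ, hQ]
    have : ι ((((ℓ : ℤ) : 𝓞 F)) : F) = ((ℓ : ℕ) : Qbar) := by simp
    rw [this]
    exact hA
  have hunder : v.asIdeal = w.asIdeal.under ℤ := by
    have hmax : v.asIdeal.IsMaximal := v.isMaximal
    refine hmax.eq_of_le ?_ ?_
    · exact (Ideal.IsPrime.under ℤ w.asIdeal).ne_top
    · show Ideal.span {(ℓ : ℤ)} ≤ _
      rw [Ideal.span_singleton_le_iff_mem, Ideal.under_def, Ideal.mem_comap]
      simpa using hℓw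
  have hLO : w.asIdeal.LiesOver v.asIdeal := ⟨hunder⟩
  have he' : v.asIdeal.ramificationIdx' w.asIdeal = 1 := by
    rw [Ideal.ramificationIdx'_eq_ramificationIdx v.asIdeal w.asIdeal v.ne_bot, hwQ]
    exact he
  have hvalℓ : w.valuation F (ℓ : F) = exp (-1 : ℤ) := by
    have h1 := HeightOneSpectrum.valuation_liesOver F v w ((ℓ : ℤ) : ℚ)
    rw [he', pow_one] at h1
    have h2 : v.valuation ℚ ((ℓ : ℤ) : ℚ) = exp (-1 : ℤ) := by
      have : ((ℓ : ℤ) : ℚ) = algebraMap ℤ ℚ (ℓ : ℤ) := rfl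
      rw [this, HeightOneSpectrum.valuation_of_algebraMap]
      exact HeightOneSpectrum.intValuation_singleton v hℓprime.ne_zero rfl
    rw [h2] at h1
    rw [h1]
    congr 1
    simp
  -- the valuation of `x`
  have hγ : w.valuation F x ≠ 0 := (Valuation.ne_zero_iff _).mpr hx
  set n : ℤ := log (w.valuation F x) with hn
  have hxn : w.valuation F x = exp n := (exp_log hγ).symm
  have hy : w.valuation F (x * (ℓ : F) ^ n) = 1 := by
    rw [map_mul, map_zpow₀, hvalℓ, hxn, ← exp_zsmul, ← exp_add]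
    simp
  have hy1 : x * (ℓ : F) ^ n ∈ V1 := by
    rw [← hw, Valuation.mem_valuationSubring_iff, hy]
  have hy2 : (x * (ℓ : F) ^ n)⁻¹ ∈ V1 := by
    rw [← hw, Valuation.mem_valuationSubring_iff, map_inv₀, hy, inv_one]
  refine ⟨n, ?_, ?_⟩
  · have := (ValuationSubring.mem_comap).mp hy1
    simpa [map_mul, map_zpow₀] using this
  · have := (ValuationSubring.mem_comap).mp hy2
    simpa [map_mul, map_zpow₀, map_inv₀] using this

end Abs

section Inertia

variable (ℓ : ℕ) [hℓ : Fact ℓ.Prime] (A : ValuationSubring Qbar) (hA : A.LiesOverPrime ℓ)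

include hA in
/-- **every nonzero element of the inertia field `Q̄^{I_A}` is `ℓ ^ n` times a unit of `A`**
(`ℓ` stays a uniformiser in the inertia field). -/
theorem ffi_lvi_unit {a : Qbar} (ha : a ∈ ffi_L A) (ha0 : a ≠ 0) :
    ∃ n : ℤ, a * (ℓ : Qbar) ^ n ∈ A ∧ (a * (ℓ : Qbar) ^ n)⁻¹ ∈ A := by
  have hℓp : ℓ.Prime := hℓ.out
  -- the finite level
  let F' : IntermediateField ℚ Qbar := ℚ⟮a⟯
  have hF'L : F' ≤ ffi_L A := adjoin_simple_le_iff.2 ha
  have haint : IsIntegral ℚ a := ((AlgebraicClosure.isAlgebraic ℚ).isAlgebraic a).isIntegral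
  have : FiniteDimensional ℚ F' := adjoin.finiteDimensional haint
  let Nf : IntermediateField ℚ Qbar := normalClosure ℚ F' Qbar
  have : Normal ℚ Qbar := ffx_unr_qbar_normal
  have : FiniteDimensional ℚ Nf := normalClosure.is_finiteDimensional ℚ F' Qbar
  have : Normal ℚ Nf := normalClosure.normal ℚ F' Qbar
  have : IsGalois ℚ Nf := ⟨⟩
  have : NumberField Nf := ⟨⟩
  have hle : F' ≤ Nf := le_normalClosure F'
  let F : IntermediateField ℚ Nf := IntermediateField.restrict hle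
  -- the inertia group of `P = 𝔪_A ∩ 𝓞 Nf` fixes `F`
  have hfix : (pl_ideal Nf A).inertia (Nf ≃ₐ[ℚ] Nf) ≤
      fixingSubgroup (Nf ≃ₐ[ℚ] Nf) (F : Set Nf) := by
    intro g hg
    have hmap := pl_map_inertia Nf A hℓp hA
    rw [SetLike.ext_iff] at hmap
    obtain ⟨σ, hσ, rfl⟩ := (hmap g).2 hg
    rw [_root_.mem_fixingSubgroup_iff]
    intro y hy
    have hy' : ((y : Nf) : Qbar) ∈ F' := (IntermediateField.mem_restrict hle y).1 hy
    have h1 : σ ((y : Nf) : Qbar) = ((y : Nf) : Qbar) := ffi_mem_L.1 (hF'L hy') σ hσ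
    apply Subtype.ext
    have h2 : ((AlgEquiv.restrictNormalHom Nf σ y : Nf) : Qbar) = σ (y : Qbar) :=
      AlgEquiv.restrictNormal_commutes σ Nf y
    change ((AlgEquiv.restrictNormalHom Nf σ y : Nf) : Qbar) = (y : Qbar)
    rw [h2, h1]
  have he : ((pl_ideal Nf A).under (𝓞 F)).ramificationIdx ℤ = 1 :=
    (ffx_ic_int Nf F (pl_ideal Nf A)).2 hfix
  have haN : a ∈ Nf := hle (mem_adjoin_simple_self ℚ a)
  have haF : (⟨a, haN⟩ : Nf) ∈ F :=
    (IntermediateField.mem_restrict hle _).2 (mem_adjoin_simple_self ℚ a)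
  have hx0 : (⟨⟨a, haN⟩, haF⟩ : F) ≠ 0 := by
    intro h
    exact ha0 (congrArg (fun z : F => ((z : Nf) : Qbar)) h)
  exact ffi_lvi_unit_mul_pow ((Nf.val : Nf →+* Qbar).comp (F.val : F →+* Nf)) ℓ A hA
    ((pl_ideal Nf A).under (𝓞 F))
    (fun x => by
      rw [Ideal.under_def, Ideal.mem_comap, pl_mem_ideal, ValuationSubring.mem_nonunits_iff]
      rfl) he ⟨⟨a, haN⟩, haF⟩ hx0

include hA in
/-- **`ℓ` generates the maximal ideal of `A ∩ Q̄^{I_A}`.** -/
theorem ffi_lvi_unr {a : Qbar} (ha : a ∈ ffi_L A) (han : a ∈ A.nonunits) :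
    a / (ℓ : Qbar) ∈ A := by
  by_cases ha0 : a = 0
  · rw [ha0, zero_div]; exact A.zero_mem
  obtain ⟨n, h1, h2⟩ := ffi_lvi_unit ℓ A hA ha ha0
  have hℓ0 : (ℓ : Qbar) ≠ 0 := Nat.cast_ne_zero.2 hℓ.out.ne_zero
  have hℓA : (ℓ : Qbar) ∈ A := A.nonunits_le hA
  rw [ValuationSubring.mem_nonunits_iff_or] at han
  rcases han with han | han
  · exact absurd han ha0
  -- `n ≤ -1`
  have hn : n ≤ -1 := by
    by_contra hcon
    push Not at hcon
    have hn0 : 0 ≤ n := by omega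
    obtain ⟨k, rfl⟩ := Int.eq_ofNat_of_zero_le hn0
    apply han
    have : a⁻¹ = (a * (ℓ : Qbar) ^ (k : ℤ))⁻¹ * (ℓ : Qbar) ^ k := by
      rw [zpow_natCast]
      field_simp
    rw [this]
    exact A.mul_mem _ _ h2 (A.pow_mem hℓA k)
  obtain ⟨k, hk⟩ := Int.eq_ofNat_of_zero_le (by omega : 0 ≤ -n - 1)
  have : a / (ℓ : Qbar) = a * (ℓ : Qbar) ^ n * (ℓ : Qbar) ^ k := by
    have hn' : n = -((k : ℤ) + 1) := by omega
    rw [hn', zpow_neg, zpow_add_one₀ hℓ0, zpow_natCast]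
    field_simp
  rw [this]
  exact A.mul_mem _ _ h1 (A.pow_mem hℓA k)

include hA in
/-- **roots of unity of order prime to `ℓ` are fixed by the inertia group.** -/
theorem ffi_lvi_root_fixed {m : ℕ} (hm : ¬ ℓ ∣ m) {ζ : Qbar} (hζ : ζ ^ m = 1)
    (σ : Qbar ≃ₐ[ℚ] Qbar) (hσ : σ ∈ A.inertiaSubgroupIn ℚ) : σ ζ = ζ := by
  have hm0 : m ≠ 0 := fun h => hm (h ▸ dvd_zero ℓ)
  obtain ⟨k, rfl⟩ : ∃ k, m = k + 1 := Nat.exists_eq_succ_of_ne_zero hm0
  obtain ⟨-, hσ2⟩ := (tl_mem_inertiaSubgroupIn_iff A σ).1 hσ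
  -- roots of unity lie in `A`
  have hroot : ∀ z : Qbar, z ^ (k + 1) = 1 → z ∈ A := by
    intro z hz
    by_contra hzA
    have h1 : z⁻¹ ∈ A.nonunits := by
      rw [ValuationSubring.mem_nonunits_iff_or, inv_inv]
      exact Or.inr hzA
    have h2 : A.valuation z⁻¹ < 1 := (ValuationSubring.mem_nonunits_iff (A := A)).1 h1
    have h3 : A.valuation (z⁻¹ ^ (k + 1)) < 1 := by
      rw [map_pow]
      exact pow_lt_one₀ zero_le h2 (Nat.succ_ne_zero k)
    rw [inv_pow, hz, inv_one, map_one] at h3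
    exact lt_irrefl _ h3
  have hζA : ζ ∈ A := hroot ζ hζ
  have hσζ : (σ ζ) ^ (k + 1) = 1 := by rw [← map_pow, hζ, map_one]
  have hσζA : σ ζ ∈ A := hroot _ hσζ
  -- `η = σ ζ / ζ`
  set η : A := ⟨σ ζ, hσζA⟩ * ⟨ζ, hζA⟩ ^ k with hη
  have hηpow : η ^ (k + 1) = 1 := by
    apply Subtype.ext
    rw [hη]
    push_cast
    rw [mul_pow, hσζ, one_mul, ← pow_mul, mul_comm, pow_mul, hζ, one_pow]
  have hres : IsLocalRing.residue A η = 1 := by
    have h1 : IsLocalRing.residue A ⟨σ ζ, hσζA⟩ = IsLocalRing.residue A ⟨ζ, hζA⟩ := by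
      rw [← sub_eq_zero, ← map_sub, IsLocalRing.residue_eq_zero_iff,
        ← ValuationSubring.coe_mem_nonunits_iff]
      exact hσ2 ζ hζA
    rw [hη, map_mul, map_pow, h1, ← pow_succ', ← map_pow]
    have : (⟨ζ, hζA⟩ : A) ^ (k + 1) = 1 := Subtype.ext (by push_cast; exact hζ)
    rw [this, map_one]
  have hη1 : η = 1 := by
    by_contra hne
    have hgeom : (∑ i ∈ Finset.range (k + 1), η ^ i) * (η - 1) = 0 := by
      rw [geom_sum_mul, hηpow, sub_self]
    have hsum : ∑ i ∈ Finset.range (k + 1), η ^ i = 0 := by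
      rcases mul_eq_zero.1 hgeom with h | h
      · exact h
      · exact absurd (sub_eq_zero.1 h) hne
    have h2 := congrArg (IsLocalRing.residue A) hsum
    rw [map_sum, map_zero] at h2
    simp only [map_pow, hres, one_pow, Finset.sum_const, Finset.card_range, nsmul_eq_mul,
      mul_one] at h2
    haveI := ebf_charP A ℓ hA
    exact hm ((CharP.cast_eq_zero_iff (IsLocalRing.ResidueField A) ℓ (k + 1)).1 h2)
  have h3 : σ ζ * ζ ^ k = 1 := by
    have := congrArg (fun z : A => (z : Qbar)) hη1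
    simpa [hη] using this
  calc σ ζ = σ ζ * ζ ^ (k + 1) := by rw [hζ, mul_one]
    _ = σ ζ * ζ ^ k * ζ := by rw [pow_succ, mul_assoc]
    _ = ζ := by rw [h3, one_mul]

include hA in
/-- the base level `K₀ = ℚ(ζ_m : ℓ ∤ m)` lies in the inertia field. -/
theorem ffi_lvi_K0_le : ebf_K0 ℓ ≤ ffi_L A := by
  rw [ebf_K0, IntermediateField.adjoin_le_iff]
  rintro ζ ⟨m, hm, hζ⟩
  exact ffi_mem_L.2 (fun σ hσ => ffi_lvi_root_fixed ℓ A hA hm hζ σ hσ)

end Inertia

/-- **[I-LVL]** the inertia field `L₁ = Q̄^{I_A}` of a place `A` of `Q̄` over `ℓ` is an unramified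
level with full residue field. -/
theorem ffi_lvi (ℓ : ℕ) [hℓ : Fact ℓ.Prime] : ffi_SeamLVL ℓ := by
  intro A hA
  have hℓ0 : (ℓ : Qbar) ≠ 0 := Nat.cast_ne_zero.2 hℓ.out.ne_zero
  have hunit : ∀ x : ↥(ffi_L A), x ≠ 0 →
      ∃ n : ℤ, x * ((ℓ : ℕ) : ↥(ffi_L A)) ^ n ∈ ffi_O A ↥(ffi_L A) ∧
        (x * ((ℓ : ℕ) : ↥(ffi_L A)) ^ n)⁻¹ ∈ ffi_O A ↥(ffi_L A) := by
    intro x hx
    obtain ⟨n, h1, h2⟩ := ffi_lvi_unit ℓ A hA x.2 (fun h0 => hx (Subtype.ext h0))
    refine ⟨n, ?_, ?_⟩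
    · rw [ValuationSubring.mem_comap, map_mul, map_zpow₀, map_natCast]; exact h1
    · rw [ValuationSubring.mem_comap, map_inv₀, map_mul, map_zpow₀, map_natCast]; exact h2
  have hℓn : ((ℓ : ℕ) : ↥(ffi_L A)) ∈ (ffi_O A ↥(ffi_L A)).nonunits := by
    rw [dsc_mem_comap_nonunits_iff, map_natCast]; exact hA
  have hℓ0' : ((ℓ : ℕ) : ↥(ffi_L A)) ≠ 0 := by exact_mod_cast hℓ.out.ne_zero
  obtain ⟨hdvr, hirr⟩ := ebf_isDVR_and_irreducible (ffi_O A ↥(ffi_L A)) ((ℓ : ℕ) : ↥(ffi_L A))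
    hℓn hℓ0' hunit
  refine ⟨?_, hdvr, ?_, ?_, ?_, jcr_isAlgClosed A, ?_⟩
  · intro a
    rw [← ffi_mem_L]
    constructor
    · rintro ⟨x, rfl⟩
      exact x.2
    · intro ha
      exact ⟨⟨a, ha⟩, rfl⟩
  · convert hirr using 1
    apply Subtype.ext
    simp
  · intro a han
    exact ffi_lvi_unr ℓ A hA a.2 han
  · intro a
    obtain ⟨o, ho, hoK, hres⟩ := ebf_residue_repr A ℓ hA a
    refine ⟨⟨o, ffi_lvi_K0_le ℓ A hA hoK⟩, ho, ?_⟩
    have h1 : IsLocalRing.residue A (a - ⟨o, ho⟩) = 0 := by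
      rw [map_sub, hres, sub_self]
    rw [IsLocalRing.residue_eq_zero_iff, ← ValuationSubring.coe_mem_nonunits_iff] at h1
    exact h1
  · intro m hm0 hm
    haveI : NeZero m := ⟨hm0⟩
    obtain ⟨ζ, hζ⟩ := ebr_exists_primitiveRoot ℓ m hm
    have hζ' : IsPrimitiveRoot ((ζ : ↥(ebf_K0 ℓ)) : Qbar) m :=
      hζ.map_of_injective (f := algebraMap ↥(ebf_K0 ℓ) Qbar) (algebraMap ↥(ebf_K0 ℓ) Qbar).injective
    refine ⟨⟨(ζ : Qbar), ffi_lvi_K0_le ℓ A hA ζ.2⟩, ?_⟩
    exact IsPrimitiveRoot.of_map_of_injective (f := algebraMap ↥(ffi_L A) Qbar) hζ'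
      (algebraMap ↥(ffi_L A) Qbar).injective

end Fermat.Agent.FF
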