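/-
Project FF (S19), cell [INST] (architect: helper5): THE FINAL WIRING of the cell.

`ffi_inst_of_leaves` : `ff_SeamINST N ℓ k` from the leaves that are not yet closed theorems (taken as
hypotheses: [P-Dκ] only); every closed leaf is plugged in.  When the last leaf lands the hypotheses disappear
(`ffi_inst`).
-/
import Mathlib
import Fermat.Agent.FF.Inst.Assembly
import Fermat.Agent.FF.Inst.LevelInertia
import Fermat.Agent.FF.Inst.Pkg.Assembly
import Fermat.Agent.FF.Inst.Pkg.Charts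
import Fermat.Agent.FF.Inst.Pkg.FB1
import Fermat.Agent.FF.Inst.Pkg.FB2
import Fermat.Agent.FF.Inst.Pkg.GeomNormal
import Fermat.Agent.FF.Inst.Pkg.GenusRiemann
import Fermat.Agent.FF.Inst.Pkg.DK
import Fermat.Agent.FF.Inst.Pt.Assembly
import Fermat.Agent.FF.Inst.Pt.AbsAssembly
import Fermat.Agent.FF.Inst.Pt.Deg
import Fermat.Agent.FF.Inst.Pt.LE
import Fermat.Agent.FF.Inst.Pt.Sep
import Fermat.Agent.FF.Inst.Pt.Red
import Fermat.Agent.FF.Inst.Pt.DZ
import Fermat.Agent.FF.Inst.Pt.EQ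
import Fermat.Agent.FF.Inst.Pt.Wire
import Fermat.Agent.FF.Inst.Pt.Lift
import Fermat.Agent.FF.Inst.Pkg.PreDict
import Fermat.Agent.FF.Assembly
import Fermat.Agent.JT3.PlaceMap.WireNodeE

set_option autoImplicit false

namespace Fermat.Agent.FF

open ModularCurve Fermat.Agent.JT3

/-- **[INST]** from the leaves still open (hypotheses), all closed leaves plugged in. -/
theorem ffi_inst_of_leaves (N : ℕ) [NeZero N] (ℓ : ℕ) [Fact ℓ.Prime] (hℓN : ¬ ℓ ∣ N) (k : ℕ)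
    (hDκ : ffi_SeamDκ N ℓ) :
    ff_SeamINST N ℓ k := by
  have hℓ : ℓ.Prime := Fact.out
  have hPKG : ffi_SeamPKG N ℓ :=
    ffi_pkg_of_seams N ℓ (ffi_ch N ℓ) ffi_fb1 ffi_fb2 ffi_gn ffi_pd ffi_gr (ffi_dk N ℓ) hDκ
  have hABS : ffi_pt_SeamABS :=
    ffi_pt_abs_of_seams ffi_pt_deg ffi_pt_red ffi_pt_le (ffi_pt_lift ffi_pt_red ffi_pt_le) ffi_pt_dz
      ffi_pt_eq ffi_pt_sep
  have hPT : ffi_SeamPT N ℓ k := ffi_pt_of_seams N ℓ k hABS (ffi_pt_wire N ℓ) (ff_finite_tors N ℓ k)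
  exact ffi_inst_of_seams N ℓ k hℓ hℓN (ffi_lvi ℓ) hPKG hPT
    (fun A hA => rpw_nodeE N ℓ hℓ hℓN A hA)

end Fermat.Agent.FF
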