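/-
Project FF (S19), cell [INST] (architect: helper5): THE CELL IS CLOSED.

`theorem ffi_inst : ff_SeamINST N ℓ k` for every prime `ℓ ∤ N` — a closed term: all leaves of the
cell are theorems on main (`FF/Inst/Main.lean` with the last leaf `ffi_dkap` plugged in).
-/
import Mathlib
import Fermat.Agent.FF.Inst.Main
import Fermat.Agent.FF.Inst.Pkg.DKap

set_option autoImplicit false

namespace Fermat.Agent.FF

/-- **[INST]**: the geometric instance of the package, for every prime `ℓ ∤ N`. -/
theorem ffi_inst (N : ℕ) [NeZero N] (ℓ : ℕ) [Fact ℓ.Prime] (hℓN : ¬ ℓ ∣ N) (k : ℕ) :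
    ff_SeamINST N ℓ k :=
  ffi_inst_of_leaves N ℓ hℓN k (ffi_dkap N ℓ)

end Fermat.Agent.FF
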