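/-
Project FF (S19), cell [INST], leaf [I-LVL]: unramified levels.  Owner: helper27.  Prefix `ffi_lvl_`.

`A` a valuation subring of `Q̄` over `ℓ`.  A LEVEL is a subfield `L ⊆ Q̄`; it is UNRAMIFIED
(`ffi_IsUnr ℓ A L`) if every nonzero element of `L` is `ℓ ^ n` times a unit of `A` (then `A ∩ L` is
a discrete valuation ring with uniformiser `ℓ`).  The base level `K₀ = ebf_K0 ℓ` is unramified, with
full residue field.

* `ffi_lvl_lift`       : (abstract, Mathlib only) LIFTING OF POINTS BY GOING-DOWN: `Ω` algebraically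
                         closed, `A ⊆ Ω` a valuation subring, `O → A` a ring map, `R` a finite flat
                         `O`-algebra, `ρ̄ : R → κ_A` over `O`.  Then `ρ̄` lifts to `ρ : R → A` over `O`.
                         [`A ⊗ R` is flat over `A`: going-down gives a prime `𝔮 ⊆ ker (A ⊗ R → κ_A)`
                         over `(0)`; `(A ⊗ R)/𝔮` is a domain integral over `A`, hence `= A`.]
* `ffi_lvl_unr_adjoin` : if `L ⊇ L₀` are unramified, `A ∩ L₀ → κ_A` is onto, and `ρ : R → Q̄` has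
                         values in `A`, is stable under `A ∩ L₀`, and `ℓ` generates `ρ⁻¹(𝔪_A)` locally,
                         then `L(ρ R)` is unramified.
* `ffi_lvl_step`       : the two together.
-/
import Mathlib
import Fermat.Agent.FF.Seams
import Fermat.Agent.FF.DescentHA
import Fermat.Agent.JT3.PlaceMap.BaseField

set_option autoImplicit false
set_option linter.unusedSectionVars false
set_option linter.style.haveILetI false

noncomputable section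

namespace Fermat.Agent.FF

open scoped TensorProduct
open Fermat.Agent.JT3

/-! ### lifting points by going-down -/

section Lift

variable {Ω : Type*} [Field Ω] [IsAlgClosed Ω] (A : ValuationSubring Ω)
  {O R : Type*} [CommRing O] [CommRing R] [Algebra O R] [Algebra O ↥A]
  [Module.Finite O R] [Module.Flat O R]

/-- **lifting of points by going-down.** -/
theorem ffi_lvl_lift (ρb : R →+* IsLocalRing.ResidueField ↥A)
    (hρb : ∀ o : O, ρb (algebraMap O R o) = IsLocalRing.residue ↥A (algebraMap O ↥A o)) :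
    ∃ ρ : R →+* ↥A, (∀ o : O, ρ (algebraMap O R o) = algebraMap O ↥A o) ∧
      ∀ r : R, IsLocalRing.residue ↥A (ρ r) = ρb r := by
  classical
  letI algκ : Algebra O (IsLocalRing.ResidueField ↥A) :=
    ((IsLocalRing.residue ↥A).comp (algebraMap O ↥A)).toAlgebra
  haveI : IsScalarTower O ↥A (IsLocalRing.ResidueField ↥A) :=
    IsScalarTower.of_algebraMap_eq fun o => rfl
  let ρbA : R →ₐ[O] IsLocalRing.ResidueField ↥A := { ρb with commutes' := hρb }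
  let χ : ↥A ⊗[O] R →ₐ[↥A] IsLocalRing.ResidueField ↥A :=
    Algebra.TensorProduct.lift (Algebra.ofId ↥A _) ρbA (fun _ _ => Commute.all _ _)
  have hχA : ∀ a : ↥A, χ (algebraMap ↥A (↥A ⊗[O] R) a) = IsLocalRing.residue ↥A a :=
    fun a => χ.commutes a
  have hχR : ∀ r : R, χ ((1 : ↥A) ⊗ₜ[O] r) = ρb r := by
    intro r
    simp [χ, ρbA]
  have hχs : Function.Surjective χ := by
    intro x
    obtain ⟨a, rfl⟩ := IsLocalRing.residue_surjective x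
    exact ⟨algebraMap ↥A (↥A ⊗[O] R) a, hχA a⟩
  have h𝔫max : (RingHom.ker χ).IsMaximal := RingHom.ker_isMaximal_of_surjective χ hχs
  haveI h𝔫prime : (RingHom.ker χ).IsPrime := h𝔫max.isPrime
  haveI h𝔫over : (RingHom.ker χ).LiesOver (IsLocalRing.maximalIdeal ↥A) := by
    refine ⟨?_⟩
    ext a
    rw [Ideal.under_def, Ideal.mem_comap, RingHom.mem_ker, hχA, IsLocalRing.residue_eq_zero_iff]
  haveI : (⊥ : Ideal ↥A).IsPrime := Ideal.isPrime_bot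
  obtain ⟨𝔮, h𝔮le, h𝔮prime, h𝔮over⟩ :=
    Ideal.exists_ideal_le_liesOver_of_le (p := (⊥ : Ideal ↥A))
      (q := IsLocalRing.maximalIdeal ↥A) (RingHom.ker χ) bot_le
  -- the domain `D = (A ⊗ R) / 𝔮`
  haveI := h𝔮prime
  have hinjD : Function.Injective (algebraMap ↥A ((↥A ⊗[O] R) ⧸ 𝔮)) := by
    rw [injective_iff_map_eq_zero]
    intro a ha
    have h1 : algebraMap ↥A (↥A ⊗[O] R) a ∈ 𝔮 := by
      rw [← Ideal.Quotient.eq_zero_iff_mem]
      exact ha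
    have h2 : a ∈ 𝔮.under ↥A := h1
    rw [← h𝔮over.over] at h2
    exact h2
  haveI : Module.IsTorsionFree ↥A ((↥A ⊗[O] R) ⧸ 𝔮) :=
    Module.isTorsionFree_iff_algebraMap_injective.mpr hinjD
  haveI : Module.IsTorsionFree ↥A Ω :=
    Module.isTorsionFree_iff_algebraMap_injective.mpr Subtype.val_injective
  haveI : Algebra.IsIntegral ↥A ((↥A ⊗[O] R) ⧸ 𝔮) := Algebra.IsIntegral.of_finite _ _
  let θ' : ((↥A ⊗[O] R) ⧸ 𝔮) →ₐ[↥A] Ω := IsAlgClosed.lift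
  have hθ'A : ∀ d, θ' d ∈ A := by
    intro d
    have h1 : IsIntegral ↥A (θ' d) := (Algebra.IsIntegral.isIntegral d).map θ'
    obtain ⟨y, hy⟩ := (IsIntegrallyClosed.isIntegral_iff (R := ↥A) (K := Ω)).mp h1
    rw [← hy]
    exact y.2
  have hθ'inj : Function.Injective θ' := by
    rw [← AlgHom.coe_toRingHom, RingHom.injective_iff_ker_eq_bot]
    apply Ideal.eq_bot_of_comap_eq_bot (R := ↥A)
    rw [eq_bot_iff]
    intro a ha
    rw [Ideal.mem_comap, RingHom.mem_ker, AlgHom.coe_toRingHom, θ'.commutes] at ha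
    rw [Ideal.mem_bot]
    exact Subtype.ext ha
  let θ : ↥A ⊗[O] R →+* ↥A :=
    ((θ' : ((↥A ⊗[O] R) ⧸ 𝔮) →+* Ω).comp (Ideal.Quotient.mk 𝔮)).codRestrict A
      fun t => hθ'A _
  have hθcoe : ∀ t, ((θ t : ↥A) : Ω) = θ' (Ideal.Quotient.mk 𝔮 t) := fun t => rfl
  have hθA : ∀ a : ↥A, θ (algebraMap ↥A (↥A ⊗[O] R) a) = a := by
    intro a
    apply Subtype.ext
    rw [hθcoe, ← Ideal.Quotient.algebraMap_eq, ← IsScalarTower.algebraMap_apply, θ'.commutes]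
    rfl
  have key : ∀ t ∈ RingHom.ker χ, θ t ∈ IsLocalRing.maximalIdeal ↥A := by
    intro t ht
    by_contra hcon
    have hu : IsUnit (θ t) := by
      by_contra h
      exact hcon ((IsLocalRing.mem_maximalIdeal _).mpr h)
    have h1 : θ' (Ideal.Quotient.mk 𝔮 t) =
        θ' (Ideal.Quotient.mk 𝔮 (algebraMap ↥A (↥A ⊗[O] R) (θ t))) := by
      rw [← hθcoe, ← hθcoe, hθA]
    have h2 := hθ'inj h1
    rw [Ideal.Quotient.eq] at h2
    have h3 : algebraMap ↥A (↥A ⊗[O] R) (θ t) ∈ RingHom.ker χ := by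
      have := (RingHom.ker χ).sub_mem ht (h𝔮le h2)
      simpa using this
    rw [RingHom.mem_ker, hχA, IsLocalRing.residue_eq_zero_iff] at h3
    exact hcon h3
  have hres : ∀ t, IsLocalRing.residue ↥A (θ t) = χ t := by
    intro t
    obtain ⟨a, ha⟩ := IsLocalRing.residue_surjective (χ t)
    have h1 : t - algebraMap ↥A (↥A ⊗[O] R) a ∈ RingHom.ker χ := by
      rw [RingHom.mem_ker, map_sub, hχA, ha, sub_self]
    have h2 := key _ h1
    rw [map_sub, hθA, ← IsLocalRing.residue_eq_zero_iff, map_sub, sub_eq_zero] at h2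
    rw [h2, ha]
  refine ⟨θ.comp (Algebra.TensorProduct.includeRight : R →ₐ[O] ↥A ⊗[O] R).toRingHom, ?_, ?_⟩
  · intro o
    have h1 : (Algebra.TensorProduct.includeRight : R →ₐ[O] ↥A ⊗[O] R) (algebraMap O R o) =
        algebraMap ↥A (↥A ⊗[O] R) (algebraMap O ↥A o) := by
      rw [AlgHom.commutes, IsScalarTower.algebraMap_apply O ↥A (↥A ⊗[O] R)]
    show θ ((Algebra.TensorProduct.includeRight : R →ₐ[O] ↥A ⊗[O] R) (algebraMap O R o)) = _
    rw [h1, hθA]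
  · intro r
    show IsLocalRing.residue ↥A
      (θ ((Algebra.TensorProduct.includeRight : R →ₐ[O] ↥A ⊗[O] R) r)) = _
    rw [hres, Algebra.TensorProduct.includeRight_apply, hχR]

end Lift

/-! ### unramified levels -/

section Unr

variable (ℓ : ℕ) [hℓ : Fact ℓ.Prime] (A : ValuationSubring ff_Qb)

/-- the level `L` is unramified at `A`: every nonzero element of `L` is `ℓ ^ n` times a unit of
`A`. -/
def ffi_IsUnr (L : IntermediateField ℚ ff_Qb) : Prop :=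
  ∀ x ∈ L, x ≠ 0 → ∃ n : ℤ, x * (ℓ : ff_Qb) ^ n ∈ A ∧ (x * (ℓ : ff_Qb) ^ n)⁻¹ ∈ A

variable {ℓ A}

/-- the base level `K₀` is unramified -/
theorem ffi_lvl_unr_K0 (hA : A.LiesOverPrime ℓ) : ffi_IsUnr ℓ A (ebf_K0 ℓ) :=
  fun _ hx hx0 => ebf_unit_mul_pow A ℓ hA hx hx0

theorem ffi_lvl_ell_ne_zero : (ℓ : ff_Qb) ≠ 0 := by
  exact_mod_cast hℓ.out.ne_zero

/-- the exponent of a nonzero nonunit is negative -/
theorem ffi_lvl_exp_neg (hA : A.LiesOverPrime ℓ) {a : ff_Qb} (ha : a ∈ A.nonunits) (ha0 : a ≠ 0)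
    {n : ℤ} (h2 : (a * (ℓ : ff_Qb) ^ n)⁻¹ ∈ A) : n < 0 := by
  by_contra hn
  rw [not_lt] at hn
  obtain ⟨m, rfl⟩ := Int.eq_ofNat_of_zero_le hn
  have hva : A.valuation a < 1 := A.mem_nonunits_iff.mp ha
  have hvℓ : A.valuation (ℓ : ff_Qb) ≤ 1 := (A.valuation_le_one_iff _).mpr (A.nonunits_le hA)
  have hne : a * (ℓ : ff_Qb) ^ (m : ℤ) ≠ 0 := mul_ne_zero ha0 (zpow_ne_zero _ ffi_lvl_ell_ne_zero)
  have h3 : A.valuation (a * (ℓ : ff_Qb) ^ (m : ℤ)) < 1 := by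
    rw [zpow_natCast, map_mul, map_pow]
    calc A.valuation a * A.valuation (ℓ : ff_Qb) ^ m ≤ A.valuation a * 1 :=
          mul_le_mul_right (pow_le_one₀ zero_le hvℓ) _
      _ = A.valuation a := mul_one _
      _ < 1 := hva
  have h4 := (A.valuation_le_one_iff _).mpr h2
  rw [map_inv₀] at h4
  have h5 : A.valuation (a * (ℓ : ff_Qb) ^ (m : ℤ)) ≠ 0 := (Valuation.ne_zero_iff _).mpr hne
  have h6 := (inv_le_one₀ (zero_lt_iff.mpr h5)).mp h4
  exact absurd h3 (not_lt.mpr h6)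

/-- in an unramified level, nonunits are divisible by `ℓ` -/
theorem ffi_lvl_div_mem (hA : A.LiesOverPrime ℓ) {L : IntermediateField ℚ ff_Qb}
    (hL : ffi_IsUnr ℓ A L) {a : ff_Qb} (haL : a ∈ L) (ha : a ∈ A.nonunits) :
    a / (ℓ : ff_Qb) ∈ A := by
  by_cases ha0 : a = 0
  · rw [ha0, zero_div]; exact A.zero_mem
  obtain ⟨n, h1, h2⟩ := hL a haL ha0
  have hn := ffi_lvl_exp_neg hA ha ha0 h2
  obtain ⟨k, hk⟩ : ∃ k : ℕ, n = -((k : ℤ) + 1) := ⟨(-n - 1).toNat, by omega⟩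
  have hℓ0 : (ℓ : ff_Qb) ≠ 0 := ffi_lvl_ell_ne_zero
  have h3 : a / (ℓ : ff_Qb) = (a * (ℓ : ff_Qb) ^ n) * (ℓ : ff_Qb) ^ k := by
    rw [hk, zpow_neg, zpow_add₀ hℓ0, zpow_natCast, zpow_one]
    field_simp
  rw [h3]
  exact A.mul_mem _ _ h1 (A.pow_mem (A.nonunits_le hA) k)

/-- `A ∩ L` is a discrete valuation ring with uniformiser `ℓ` -/
theorem ffi_lvl_isDVR (hA : A.LiesOverPrime ℓ) {L : IntermediateField ℚ ff_Qb}
    (hL : ffi_IsUnr ℓ A L) :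
    IsDiscreteValuationRing ↥(A.comap (algebraMap ↥L ff_Qb)) ∧
      Irreducible ((ℓ : ℕ) : ↥(A.comap (algebraMap ↥L ff_Qb))) := by
  have h := ebf_isDVR_and_irreducible (A.comap (algebraMap ↥L ff_Qb)) ((ℓ : ℕ) : ↥L)
    (by rw [dsc_mem_comap_nonunits_iff, map_natCast]; exact hA)
    (by exact_mod_cast hℓ.out.ne_zero)
    (by
      intro x hx
      obtain ⟨n, h1, h2⟩ := hL x x.2 (fun h0 => hx (Subtype.ext h0))
      refine ⟨n, ?_, ?_⟩
      · rw [ValuationSubring.mem_comap, map_mul, map_zpow₀, map_natCast]; exact h1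
      · rw [ValuationSubring.mem_comap, map_inv₀, map_mul, map_zpow₀, map_natCast]; exact h2)
  refine ⟨h.1, ?_⟩
  convert h.2 using 1
  apply Subtype.ext
  simp

/-! ### adjoining the values of a point -/

section Adjoin

variable {R : Type*} [CommRing R] (ρ : R →+* ff_Qb) (L : IntermediateField ℚ ff_Qb)

/-- finite sums `Σ o_i ρ(r_i)` with `o_i ∈ A ∩ L` -/
def ffi_lvl_IsS (A : ValuationSubring ff_Qb) (s : ff_Qb) : Prop :=
  ∃ (ι : Type) (_ : Fintype ι) (o : ι → ff_Qb) (r : ι → R),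
    (∀ i, o i ∈ L ∧ o i ∈ A) ∧ s = ∑ i, o i * ρ (r i)

variable {ρ L}

theorem ffi_lvl_isS_zero : ffi_lvl_IsS ρ L A 0 :=
  ⟨PEmpty, inferInstance, fun i => i.elim, fun i => i.elim, fun i => i.elim, by simp⟩

theorem ffi_lvl_isS_map (r : R) : ffi_lvl_IsS ρ L A (ρ r) :=
  ⟨PUnit, inferInstance, fun _ => 1, fun _ => r, fun _ => ⟨L.one_mem, A.one_mem⟩, by simp⟩

theorem ffi_lvl_isS_add {s t : ff_Qb} (hs : ffi_lvl_IsS ρ L A s) (ht : ffi_lvl_IsS ρ L A t) :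
    ffi_lvl_IsS ρ L A (s + t) := by
  obtain ⟨ι, _, o, r, ho, rfl⟩ := hs
  obtain ⟨ι', _, o', r', ho', rfl⟩ := ht
  refine ⟨ι ⊕ ι', inferInstance, Sum.elim o o', Sum.elim r r', ?_, ?_⟩
  · rintro (i | i)
    · exact ho i
    · exact ho' i
  · rw [Fintype.sum_sum_type]
    simp

theorem ffi_lvl_isS_smul {s c : ff_Qb} (hcL : c ∈ L) (hcA : c ∈ A) (hs : ffi_lvl_IsS ρ L A s) :
    ffi_lvl_IsS ρ L A (c * s) := by
  obtain ⟨ι, _, o, r, ho, rfl⟩ := hs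
  refine ⟨ι, inferInstance, fun i => c * o i, r,
    fun i => ⟨L.mul_mem hcL (ho i).1, A.mul_mem _ _ hcA (ho i).2⟩, ?_⟩
  rw [Finset.mul_sum]
  exact Finset.sum_congr rfl fun i _ => by ring

theorem ffi_lvl_isS_mul_map {s : ff_Qb} (hs : ffi_lvl_IsS ρ L A s) (r' : R) :
    ffi_lvl_IsS ρ L A (s * ρ r') := by
  obtain ⟨ι, _, o, r, ho, rfl⟩ := hs
  refine ⟨ι, inferInstance, o, fun i => r i * r', ho, ?_⟩
  rw [Finset.sum_mul]
  exact Finset.sum_congr rfl fun i _ => by rw [map_mul]; ring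

theorem ffi_lvl_isS_mem (hρA : ∀ r, ρ r ∈ A) {s : ff_Qb} (hs : ffi_lvl_IsS ρ L A s) : s ∈ A := by
  obtain ⟨ι, _, o, r, ho, rfl⟩ := hs
  exact A.toSubring.sum_mem fun i _ => A.mul_mem _ _ (ho i).2 (hρA _)

theorem ffi_lvl_inv_mem {x : ff_Qb} (hx : x ∈ A) (hx' : x ∉ A.nonunits) : x⁻¹ ∈ A := by
  rw [ValuationSubring.mem_nonunits_iff, not_lt] at hx'
  have h1 := (A.valuation_le_one_iff x).mpr hx
  have h2 : A.valuation x = 1 := le_antisymm h1 hx'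
  rw [← A.valuation_le_one_iff, map_inv₀, h2, inv_one]

theorem ffi_lvl_nonunits_add {x y : ff_Qb} (hx : x ∈ A.nonunits) (hy : y ∈ A.nonunits) :
    x + y ∈ A.nonunits := by
  rw [ValuationSubring.mem_nonunits_iff] at hx hy ⊢
  exact Valuation.map_add_lt _ hx hy

theorem ffi_lvl_nonunits_mul {x y : ff_Qb} (hx : x ∈ A.nonunits) (hy : y ∈ A) :
    x * y ∈ A.nonunits := by
  rw [ValuationSubring.mem_nonunits_iff] at hx ⊢
  have hy' := (A.valuation_le_one_iff y).mpr hy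
  rw [map_mul]
  calc A.valuation x * A.valuation y ≤ A.valuation x * 1 := mul_le_mul_right hy' _
    _ = A.valuation x := mul_one _
    _ < 1 := hx

theorem ffi_lvl_not_nonunits_mul {x y : ff_Qb} (hxA : x ∈ A) (hyA : y ∈ A)
    (hx : x ∉ A.nonunits) (hy : y ∉ A.nonunits) : x * y ∉ A.nonunits := by
  rw [ValuationSubring.mem_nonunits_iff, not_lt] at hx hy ⊢
  have h1 : A.valuation x = 1 := le_antisymm ((A.valuation_le_one_iff x).mpr hxA) hx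
  have h2 : A.valuation y = 1 := le_antisymm ((A.valuation_le_one_iff y).mpr hyA) hy
  rw [map_mul, h1, h2, one_mul]

/-- **the key step**: a nonunit `s = Σ o_i ρ(r_i)` becomes divisible by `ℓ` after multiplication
by a unit `ρ s'`. -/
theorem ffi_lvl_key (hA : A.LiesOverPrime ℓ) {L₀ : IntermediateField ℚ ff_Qb} (hLL : L₀ ≤ L)
    (hL : ffi_IsUnr ℓ A L)
    (hres : ∀ a : ff_Qb, a ∈ A → ∃ o ∈ L₀, o ∈ A ∧ a - o ∈ A.nonunits)
    (hρA : ∀ r, ρ r ∈ A)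
    (hρO : ∀ o ∈ L₀, o ∈ A → ∀ r, ∃ r', ρ r' = o * ρ r)
    (het : ∀ r, ρ r ∈ A.nonunits →
      ∃ s r', ρ s ∉ A.nonunits ∧ ρ s * ρ r = (ℓ : ff_Qb) * ρ r')
    {s : ff_Qb} (hs : ffi_lvl_IsS ρ L A s) (hsm : s ∈ A.nonunits) :
    ∃ (s' : R) (s₄ : ff_Qb), ρ s' ∉ A.nonunits ∧ ffi_lvl_IsS ρ L A s₄ ∧
      s * ρ s' = (ℓ : ff_Qb) * s₄ := by
  classical
  obtain ⟨ι, _, o, r, ho, rfl⟩ := hs
  have hℓ0 : (ℓ : ff_Qb) ≠ 0 := ffi_lvl_ell_ne_zero
  choose o' ho'L ho'A hdiff using fun i => hres (o i) (ho i).2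
  have heL : ∀ i, (o i - o' i) / (ℓ : ff_Qb) ∈ L := fun i =>
    L.div_mem (L.sub_mem (ho i).1 (hLL (ho'L i))) (by exact_mod_cast L.natCast_mem ℓ)
  have heA : ∀ i, (o i - o' i) / (ℓ : ff_Qb) ∈ A := fun i =>
    ffi_lvl_div_mem hA hL (L.sub_mem (ho i).1 (hLL (ho'L i))) (hdiff i)
  choose r' hr' using fun i => hρO (o' i) (ho'L i) (ho'A i) (r i)
  set s₃ : ff_Qb := ∑ i, (o i - o' i) / (ℓ : ff_Qb) * ρ (r i) with hs₃
  have hs₃S : ffi_lvl_IsS ρ L A s₃ :=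
    ⟨ι, inferInstance, fun i => (o i - o' i) / (ℓ : ff_Qb), r, fun i => ⟨heL i, heA i⟩, rfl⟩
  have hsplit : ∑ i, o i * ρ (r i) = ρ (∑ i, r' i) + (ℓ : ff_Qb) * s₃ := by
    rw [map_sum, hs₃, Finset.mul_sum, ← Finset.sum_add_distrib]
    refine Finset.sum_congr rfl fun i _ => ?_
    rw [hr']
    field_simp
    ring
  have hstar : ρ (∑ i, r' i) ∈ A.nonunits := by
    have h1 : ρ (∑ i, r' i) = ∑ i, o i * ρ (r i) + (-(ℓ : ff_Qb)) * s₃ := by
      rw [hsplit]; ring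
    rw [h1]
    refine ffi_lvl_nonunits_add hsm (ffi_lvl_nonunits_mul ?_ (ffi_lvl_isS_mem hρA hs₃S))
    rw [ValuationSubring.mem_nonunits_iff, Valuation.map_neg]
    exact A.mem_nonunits_iff.mp hA
  obtain ⟨s', r'', hs', heq⟩ := het _ hstar
  refine ⟨s', ρ r'' + s₃ * ρ s', hs',
    ffi_lvl_isS_add (ffi_lvl_isS_map r'') (ffi_lvl_isS_mul_map hs₃S s'), ?_⟩
  rw [hsplit, add_mul, mul_comm (ρ _) (ρ s'), heq]
  ring

/-- every nonzero `t = s₁ / ρ r₂` (`s₁ = Σ o_i ρ(r_i)`, `ρ r₂` a unit) is a power of `ℓ` times a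
unit of `A`. -/
theorem ffi_lvl_factor (hA : A.LiesOverPrime ℓ) {L₀ : IntermediateField ℚ ff_Qb} (hLL : L₀ ≤ L)
    (hL : ffi_IsUnr ℓ A L)
    (hres : ∀ a : ff_Qb, a ∈ A → ∃ o ∈ L₀, o ∈ A ∧ a - o ∈ A.nonunits)
    (hρA : ∀ r, ρ r ∈ A)
    (hρO : ∀ o ∈ L₀, o ∈ A → ∀ r, ∃ r', ρ r' = o * ρ r)
    (het : ∀ r, ρ r ∈ A.nonunits →
      ∃ s r', ρ s ∉ A.nonunits ∧ ρ s * ρ r = (ℓ : ff_Qb) * ρ r') :
    ∀ (k : ℕ) (t s₁ : ff_Qb) (r₂ : R), ffi_lvl_IsS ρ L A s₁ → ρ r₂ ∉ A.nonunits →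
      t * ρ r₂ = s₁ → t ≠ 0 → (ℓ : ff_Qb) ^ k * t⁻¹ ∈ A →
      ∃ n : ℕ, t * (ℓ : ff_Qb) ^ (-(n : ℤ)) ∈ A ∧ (t * (ℓ : ff_Qb) ^ (-(n : ℤ)))⁻¹ ∈ A := by
  have hℓ0 : (ℓ : ff_Qb) ≠ 0 := ffi_lvl_ell_ne_zero
  intro k
  induction k with
  | zero =>
    intro t s₁ r₂ hs₁ hr₂ ht ht0 hk
    rw [pow_zero, one_mul] at hk
    have htA : t ∈ A := by
      have h1 : t = s₁ * (ρ r₂)⁻¹ := by
        rw [← ht, mul_assoc, mul_inv_cancel₀, mul_one]
        intro h0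
        apply hr₂
        rw [h0]
        exact A.mem_nonunits_iff.mpr (by simp)
      rw [h1]
      exact A.mul_mem _ _ (ffi_lvl_isS_mem hρA hs₁) (ffi_lvl_inv_mem (hρA _) hr₂)
    exact ⟨0, by simpa using htA, by simpa using hk⟩
  | succ k ih =>
    intro t s₁ r₂ hs₁ hr₂ ht ht0 hk
    have hρr₂0 : ρ r₂ ≠ 0 := by
      intro h0
      apply hr₂
      rw [h0]
      exact A.mem_nonunits_iff.mpr (by simp)
    have htA : t ∈ A := by
      have h1 : t = s₁ * (ρ r₂)⁻¹ := by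
        rw [← ht, mul_assoc, mul_inv_cancel₀ hρr₂0, mul_one]
      rw [h1]
      exact A.mul_mem _ _ (ffi_lvl_isS_mem hρA hs₁) (ffi_lvl_inv_mem (hρA _) hr₂)
    by_cases htm : t ∈ A.nonunits
    · have hs₁m : s₁ ∈ A.nonunits := by
        rw [← ht]; exact ffi_lvl_nonunits_mul htm (hρA _)
      obtain ⟨s', s₄, hs', hs₄, heq⟩ := ffi_lvl_key hA hLL hL hres hρA hρO het hs₁ hs₁m
      have h1 : t / (ℓ : ff_Qb) * ρ (r₂ * s') = s₄ := by
        rw [map_mul, div_mul_eq_mul_div, ← mul_assoc, ht, heq, mul_div_assoc]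
        exact mul_div_cancel₀ _ hℓ0
      have h2 : ρ (r₂ * s') ∉ A.nonunits := by
        rw [map_mul]
        exact ffi_lvl_not_nonunits_mul (hρA _) (hρA _) hr₂ hs'
      have h3 : t / (ℓ : ff_Qb) ≠ 0 := div_ne_zero ht0 hℓ0
      have h4 : (ℓ : ff_Qb) ^ k * (t / (ℓ : ff_Qb))⁻¹ ∈ A := by
        have : (ℓ : ff_Qb) ^ k * (t / (ℓ : ff_Qb))⁻¹ = (ℓ : ff_Qb) ^ (k + 1) * t⁻¹ := by
          rw [inv_div, pow_succ]
          field_simp
        rw [this]; exact hk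
      obtain ⟨n, hn1, hn2⟩ := ih _ _ _ hs₄ h2 h1 h3 h4
      have h5 : t * (ℓ : ff_Qb) ^ (-((n + 1 : ℕ) : ℤ)) =
          t / (ℓ : ff_Qb) * (ℓ : ff_Qb) ^ (-(n : ℤ)) := by
        rw [Nat.cast_succ, neg_add, zpow_add₀ hℓ0, zpow_neg_one]
        field_simp
      refine ⟨n + 1, ?_, ?_⟩
      · rw [h5]; exact hn1
      · rw [h5]; exact hn2
    · exact ⟨0, by simpa using htA, by simpa using ffi_lvl_inv_mem htA htm⟩

/-- elements of `L(ρ R)` are fractions `s / d`, `s = Σ o_i ρ(r_i)`, `d ∈ A ∩ L`. -/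
theorem ffi_lvl_frac {x : ff_Qb} (hx : x ∈ IntermediateField.adjoin ↥L (Set.range ρ)) :
    ∃ d s : ff_Qb, d ∈ L ∧ d ∈ A ∧ d ≠ 0 ∧ ffi_lvl_IsS ρ L A s ∧ d * x = s := by
  have halgQ : Algebra.IsAlgebraic ℚ ff_Qb := AlgebraicClosure.isAlgebraic ℚ
  have halg : Algebra.IsAlgebraic ↥L ff_Qb := Algebra.IsAlgebraic.tower_top (K := ℚ) ↥L
  have h1 : x ∈ (IntermediateField.adjoin ↥L (Set.range ρ)).toSubalgebra := hx
  clear hx
  rw [IntermediateField.adjoin_toSubalgebra, ← Subalgebra.mem_toSubmodule,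
    Algebra.adjoin_eq_span] at h1
  have hcl : (Submonoid.closure (Set.range ρ) : Set ff_Qb) = Set.range ρ := by
    have := (MonoidHom.mrange (ρ : R →* ff_Qb)).closure_eq
    have h2 : ((MonoidHom.mrange (ρ : R →* ff_Qb) : Submonoid ff_Qb) : Set ff_Qb) = Set.range ρ :=
      MonoidHom.coe_mrange _
    rw [← h2, this]
  rw [hcl] at h1
  induction h1 using Submodule.span_induction with
  | mem y hy =>
    obtain ⟨r, rfl⟩ := hy
    exact ⟨1, ρ r, L.one_mem, A.one_mem, one_ne_zero, ffi_lvl_isS_map r, one_mul _⟩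
  | zero => exact ⟨1, 0, L.one_mem, A.one_mem, one_ne_zero, ffi_lvl_isS_zero, mul_zero _⟩
  | add y z _ _ hy hz =>
    obtain ⟨d, s, hdL, hdA, hd0, hs, hds⟩ := hy
    obtain ⟨d', s', hdL', hdA', hd0', hs', hds'⟩ := hz
    refine ⟨d * d', d' * s + d * s', L.mul_mem hdL hdL', A.mul_mem _ _ hdA hdA',
      mul_ne_zero hd0 hd0', ffi_lvl_isS_add (ffi_lvl_isS_smul hdL' hdA' hs)
        (ffi_lvl_isS_smul hdL hdA hs'), ?_⟩
    rw [← hds, ← hds']; ring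
  | smul l y _ hy =>
    obtain ⟨d, s, hdL, hdA, hd0, hs, hds⟩ := hy
    by_cases hl0 : (l : ff_Qb) = 0
    · refine ⟨1, 0, L.one_mem, A.one_mem, one_ne_zero, ffi_lvl_isS_zero, ?_⟩
      rw [Algebra.smul_def, show algebraMap ↥L ff_Qb l = (l : ff_Qb) from rfl, hl0]; ring
    rcases A.mem_or_inv_mem (l : ff_Qb) with hlA | hlA
    · refine ⟨d, (l : ff_Qb) * s, hdL, hdA, hd0, ffi_lvl_isS_smul l.2 hlA hs, ?_⟩
      rw [Algebra.smul_def, show algebraMap ↥L ff_Qb l = (l : ff_Qb) from rfl, ← hds]; ring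
    · refine ⟨d * (l : ff_Qb)⁻¹, s, L.mul_mem hdL (L.inv_mem l.2), A.mul_mem _ _ hdA hlA,
        mul_ne_zero hd0 (inv_ne_zero hl0), hs, ?_⟩
      rw [Algebra.smul_def, show algebraMap ↥L ff_Qb l = (l : ff_Qb) from rfl, ← hds]
      field_simp

/-- **adjoining the values of a point keeps the level unramified.** -/
theorem ffi_lvl_unr_adjoin (hA : A.LiesOverPrime ℓ) {L₀ : IntermediateField ℚ ff_Qb}
    (hLL : L₀ ≤ L) (hL : ffi_IsUnr ℓ A L)
    (hres : ∀ a : ff_Qb, a ∈ A → ∃ o ∈ L₀, o ∈ A ∧ a - o ∈ A.nonunits)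
    (hρA : ∀ r, ρ r ∈ A)
    (hρO : ∀ o ∈ L₀, o ∈ A → ∀ r, ∃ r', ρ r' = o * ρ r)
    (het : ∀ r, ρ r ∈ A.nonunits →
      ∃ s r', ρ s ∉ A.nonunits ∧ ρ s * ρ r = (ℓ : ff_Qb) * ρ r') :
    ffi_IsUnr ℓ A ((IntermediateField.adjoin ↥L (Set.range ρ)).restrictScalars ℚ) := by
  intro x hx hx0
  have hℓ0 : (ℓ : ff_Qb) ≠ 0 := ffi_lvl_ell_ne_zero
  rw [IntermediateField.mem_restrictScalars] at hx
  obtain ⟨d, s, hdL, hdA, hd0, hs, hds⟩ := ffi_lvl_frac (A := A) hx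
  have hs0 : s ≠ 0 := by rw [← hds]; exact mul_ne_zero hd0 hx0
  obtain ⟨k, hk⟩ := ffx_exists_pow_mul_mem hA s⁻¹
  have hone : ρ 1 ∉ A.nonunits := by
    rw [map_one]; exact A.mem_nonunits_iff.not.mpr (by simp)
  obtain ⟨n, hn1, hn2⟩ := ffi_lvl_factor hA hLL hL hres hρA hρO het k s s 1 hs hone
    (by rw [map_one, mul_one]) hs0 hk
  obtain ⟨m, hm1, hm2⟩ := hL d hdL hd0
  have hx' : x = s / d := by rw [← hds]; field_simp
  have hkey : x * (ℓ : ff_Qb) ^ (-(n : ℤ) - m) =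
      (s * (ℓ : ff_Qb) ^ (-(n : ℤ))) * (d * (ℓ : ff_Qb) ^ m)⁻¹ := by
    rw [hx', zpow_sub₀ hℓ0]
    field_simp
  refine ⟨-(n : ℤ) - m, ?_, ?_⟩
  · rw [hkey]; exact A.mul_mem _ _ hn1 hm2
  · rw [hkey, mul_inv, inv_inv]; exact A.mul_mem _ _ hn2 hm1

end Adjoin

/-! ### the step: lifting a point keeps the level unramified -/

section Step

/-- the inclusion `A ∩ L₀ → A` -/
def ffi_lvl_toA (A : ValuationSubring ff_Qb) (L₀ : IntermediateField ℚ ff_Qb) :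
    ↥(A.comap (algebraMap ↥L₀ ff_Qb)) →+* ↥A where
  toFun o := ⟨algebraMap ↥L₀ ff_Qb o.1, o.2⟩
  map_one' := Subtype.ext (by simp)
  map_mul' x y := Subtype.ext (by simp)
  map_zero' := Subtype.ext (by simp)
  map_add' x y := Subtype.ext (by simp)

theorem ffi_lvl_toA_coe (L₀ : IntermediateField ℚ ff_Qb) (o : ↥(A.comap (algebraMap ↥L₀ ff_Qb))) :
    ((ffi_lvl_toA A L₀ o : ↥A) : ff_Qb) = ((o : ↥L₀) : ff_Qb) := rfl

/-- **[I-LVL] the step.**  `L₀ ≤ L` levels, `L` unramified, `A ∩ L₀ → κ_A` onto; `R` a finite flat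
`A ∩ L₀`-algebra with a point `ρ̄ : R → κ_A` at which `ℓ` generates the maximal ideal locally.  Then
`ρ̄` lifts to `ρ : R → Q̄` over `A ∩ L₀`, with values in `A`, and `L(ρ R)` is unramified. -/
theorem ffi_lvl_step (hA : A.LiesOverPrime ℓ) {L₀ L : IntermediateField ℚ ff_Qb} (hLL : L₀ ≤ L)
    (hL : ffi_IsUnr ℓ A L)
    (hres : ∀ a : ff_Qb, a ∈ A → ∃ o ∈ L₀, o ∈ A ∧ a - o ∈ A.nonunits)
    (R : Type*) [CommRing R] [Algebra ↥(A.comap (algebraMap ↥L₀ ff_Qb)) R]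
    [Module.Finite ↥(A.comap (algebraMap ↥L₀ ff_Qb)) R]
    [Module.Flat ↥(A.comap (algebraMap ↥L₀ ff_Qb)) R]
    (ρb : R →+* IsLocalRing.ResidueField ↥A)
    (hρb : ∀ o : ↥(A.comap (algebraMap ↥L₀ ff_Qb)),
      ρb (algebraMap _ R o) = IsLocalRing.residue ↥A (ffi_lvl_toA A L₀ o))
    (het : ∀ r : R, ρb r = 0 → ∃ s r' : R, ρb s ≠ 0 ∧ s * r = (ℓ : R) * r') :
    ∃ ρ : R →+* ff_Qb,
      (∀ o : ↥(A.comap (algebraMap ↥L₀ ff_Qb)), ρ (algebraMap _ R o) = ((o : ↥L₀) : ff_Qb)) ∧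
      (∀ r, ∃ h : ρ r ∈ A, IsLocalRing.residue ↥A ⟨ρ r, h⟩ = ρb r) ∧
      ffi_IsUnr ℓ A ((IntermediateField.adjoin ↥L (Set.range ρ)).restrictScalars ℚ) := by
  letI : Algebra ↥(A.comap (algebraMap ↥L₀ ff_Qb)) ↥A := (ffi_lvl_toA A L₀).toAlgebra
  obtain ⟨ρ', hρ'O, hρ'res⟩ := ffi_lvl_lift A ρb hρb
  have hmem : ∀ r, (A.subtype.comp ρ') r ∈ A := fun r => (ρ' r).2
  have hnon : ∀ r, (A.subtype.comp ρ') r ∈ A.nonunits ↔ ρb r = 0 := by
    intro r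
    rw [← hρ'res, IsLocalRing.residue_eq_zero_iff, ← ValuationSubring.coe_mem_nonunits_iff]
    rfl
  refine ⟨A.subtype.comp ρ', ?_, ?_, ?_⟩
  · intro o
    show ((ρ' (algebraMap _ R o) : ↥A) : ff_Qb) = _
    rw [hρ'O]
    rfl
  · intro r
    exact ⟨hmem r, hρ'res r⟩
  · refine ffi_lvl_unr_adjoin hA hLL hL hres hmem ?_ ?_
    · intro o hoL hoA r
      refine ⟨algebraMap _ R (⟨⟨o, hoL⟩, hoA⟩ : ↥(A.comap (algebraMap ↥L₀ ff_Qb))) * r, ?_⟩
      rw [map_mul]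
      congr 1
      show ((ρ' (algebraMap _ R _) : ↥A) : ff_Qb) = _
      rw [hρ'O]
      rfl
    · intro r hr
      obtain ⟨s, r', hs, heq⟩ := het r ((hnon r).mp hr)
      refine ⟨s, r', fun h => hs ((hnon s).mp h), ?_⟩
      rw [← map_mul, heq, map_mul, map_natCast]

/-- the residue field of `A ∩ K₀` is the whole residue field of `A` -/
theorem ffi_lvl_hres_K0 (hA : A.LiesOverPrime ℓ) :
    ∀ a : ff_Qb, a ∈ A → ∃ o ∈ ebf_K0 ℓ, o ∈ A ∧ a - o ∈ A.nonunits := by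
  intro a ha
  obtain ⟨o, ho, hoK, hres⟩ := ebf_residue_repr A ℓ hA ⟨a, ha⟩
  refine ⟨o, hoK, ho, ?_⟩
  have h1 : IsLocalRing.residue ↥A (⟨a, ha⟩ - ⟨o, ho⟩) = 0 := by
    rw [map_sub, hres, sub_self]
  rw [IsLocalRing.residue_eq_zero_iff, ← ValuationSubring.coe_mem_nonunits_iff] at h1
  exact h1

universe u

/-- **[I-LVL] finitely many points.**  The iterated step. -/
theorem ffi_lvl_steps (hA : A.LiesOverPrime ℓ) {L₀ : IntermediateField ℚ ff_Qb}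
    (hres : ∀ a : ff_Qb, a ∈ A → ∃ o ∈ L₀, o ∈ A ∧ a - o ∈ A.nonunits) :
    ∀ (g : ℕ) (L : IntermediateField ℚ ff_Qb), L₀ ≤ L → ffi_IsUnr ℓ A L →
    ∀ (R : Fin g → Type u) [∀ i, CommRing (R i)]
      [∀ i, Algebra ↥(A.comap (algebraMap ↥L₀ ff_Qb)) (R i)]
      [∀ i, Module.Finite ↥(A.comap (algebraMap ↥L₀ ff_Qb)) (R i)]
      [∀ i, Module.Flat ↥(A.comap (algebraMap ↥L₀ ff_Qb)) (R i)]
      (ρb : ∀ i, R i →+* IsLocalRing.ResidueField ↥A),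
      (∀ i (o : ↥(A.comap (algebraMap ↥L₀ ff_Qb))),
        ρb i (algebraMap _ (R i) o) = IsLocalRing.residue ↥A (ffi_lvl_toA A L₀ o)) →
      (∀ i (r : R i), ρb i r = 0 → ∃ s r' : R i, ρb i s ≠ 0 ∧ s * r = (ℓ : R i) * r') →
    ∃ (L' : IntermediateField ℚ ff_Qb) (ρ : ∀ i, R i →+* ff_Qb), L ≤ L' ∧ ffi_IsUnr ℓ A L' ∧
      ∀ i, (∀ o : ↥(A.comap (algebraMap ↥L₀ ff_Qb)),
          ρ i (algebraMap _ (R i) o) = ((o : ↥L₀) : ff_Qb)) ∧
        (∀ r, ρ i r ∈ L') ∧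
        (∀ r, ∃ h : ρ i r ∈ A, IsLocalRing.residue ↥A ⟨ρ i r, h⟩ = ρb i r) := by
  intro g
  induction g with
  | zero =>
    intro L _ hL R _ _ _ _ ρb _ _
    exact ⟨L, fun i => i.elim0, le_rfl, hL, fun i => i.elim0⟩
  | succ g ih =>
    intro L hLL hL R _ _ _ _ ρb hρb het
    obtain ⟨ρ₀, h1, h2, h3⟩ := ffi_lvl_step hA hLL hL hres (R 0) (ρb 0) (hρb 0) (het 0)
    have hLL₁ : L ≤ (IntermediateField.adjoin ↥L (Set.range ρ₀)).restrictScalars ℚ := by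
      intro x hx
      rw [IntermediateField.mem_restrictScalars]
      exact (IntermediateField.adjoin ↥L (Set.range ρ₀)).algebraMap_mem ⟨x, hx⟩
    obtain ⟨L', ρs, hL', hL'u, hρs⟩ := ih _ (hLL.trans hLL₁) h3 (fun i => R i.succ)
      (fun i => ρb i.succ) (fun i => hρb i.succ) (fun i => het i.succ)
    refine ⟨L', Fin.cons (α := fun i => R i →+* ff_Qb) ρ₀ ρs, hLL₁.trans hL', hL'u, ?_⟩
    intro i
    refine Fin.cases ?_ (fun i => ?_) i
    · refine ⟨h1, fun r => hL' ?_, h2⟩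
      rw [IntermediateField.mem_restrictScalars]
      exact IntermediateField.subset_adjoin _ _ ⟨r, rfl⟩
    · exact hρs i

end Step

end Unr

end Fermat.Agent.FF
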